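/-
Program G, package G/Kron (prefix ghr): definitions.

* `ghrCoeffAut N τ` : the coefficientwise action of a ring automorphism `τ` of `k` on the mod-`ℓ`
  function field `F_k(N) ⊂ k((q))`, as a `SemilinearAut` (so that it acts on places, divisors,
  `Pic0`, by the Prelude instances of `Def_AlgebraicCurve_BaseChangeGalois`).
* `ghrFrob N ℓ` : the special case `τ = Frobenius` of a perfect field of characteristic `ℓ`.
* `ghrNorm1` : the `ℓ¹`-norm of a finitely supported integer function.
-/
import Mathlib
import Fermat.Agent.G.Conj.FullC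
import Fermat.Prelude.Def_AlgebraicCurve_BaseChangeGalois

set_option autoImplicit false

noncomputable section

namespace Fermat.Agent.G

open ModularCurve AlgebraicCurve

section CoeffAut

variable {k : Type*} [Field k] (N : ℕ) [NeZero N]

/-- coefficientwise action of `τ : k ≃+* k` on `F_k(N)` -/
def ghrCoeffRingAut (τ : k ≃+* k) :
    modularFunctionFieldFullC k N ≃+* modularFunctionFieldFullC k N where
  toFun x := ⟨coeffMap (τ : k →+* k) (x : LaurentSeries k), gcj_coeffMap_mem_fullC N _ x.2⟩
  invFun x := ⟨coeffMap (τ.symm : k →+* k) (x : LaurentSeries k), gcj_coeffMap_mem_fullC N _ x.2⟩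
  left_inv x := Subtype.ext <| by
    show coeffMap (τ.symm : k →+* k) (coeffMap (τ : k →+* k) (x : LaurentSeries k))
      = (x : LaurentSeries k)
    rw [coeffMap_coeffMap,
      coeffMap_congr (g := RingHom.id k) (RingHom.ext fun a => τ.symm_apply_apply a)
        (x : LaurentSeries k),
      coeffMap_id]
  right_inv x := Subtype.ext <| by
    show coeffMap (τ : k →+* k) (coeffMap (τ.symm : k →+* k) (x : LaurentSeries k))
      = (x : LaurentSeries k)
    rw [coeffMap_coeffMap,
      coeffMap_congr (g := RingHom.id k) (RingHom.ext fun a => τ.apply_symm_apply a)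
        (x : LaurentSeries k),
      coeffMap_id]
  map_mul' x y :=
    Subtype.ext (map_mul (coeffMap (τ : k →+* k)) (x : LaurentSeries k) (y : LaurentSeries k))
  map_add' x y :=
    Subtype.ext (map_add (coeffMap (τ : k →+* k)) (x : LaurentSeries k) (y : LaurentSeries k))

@[simp]
theorem coe_ghrCoeffRingAut_apply (τ : k ≃+* k) (x : modularFunctionFieldFullC k N) :
    (ghrCoeffRingAut N τ x : LaurentSeries k) = coeffMap (τ : k →+* k) (x : LaurentSeries k) :=
  rfl

theorem ghrCoeffRingAut_algebraMap (τ : k ≃+* k) (a : k) :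
    ghrCoeffRingAut N τ (algebraMap k (modularFunctionFieldFullC k N) a)
      = algebraMap k (modularFunctionFieldFullC k N) (τ a) :=
  Subtype.ext (coeffMap_algebraMap (τ : k →+* k) a)

/-- coefficientwise action of `τ : k ≃+* k` on `F_k(N)` as a semilinear automorphism -/
def ghrCoeffAut (τ : k ≃+* k) : SemilinearAut k (modularFunctionFieldFullC k N) :=
  ⟨(ghrCoeffRingAut N τ, τ), fun a => ghrCoeffRingAut_algebraMap N τ a⟩

@[simp]
theorem toRingAut_ghrCoeffAut (τ : k ≃+* k) :
    SemilinearAut.toRingAut (ghrCoeffAut N τ) = ghrCoeffRingAut N τ := rfl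

@[simp]
theorem baseAut_ghrCoeffAut (τ : k ≃+* k) :
    SemilinearAut.baseAut (ghrCoeffAut N τ) = τ := rfl

theorem coe_ghrCoeffAut_smul (τ : k ≃+* k) (x : modularFunctionFieldFullC k N) :
    ((ghrCoeffAut N τ • x : modularFunctionFieldFullC k N) : LaurentSeries k)
      = coeffMap (τ : k →+* k) (x : LaurentSeries k) :=
  rfl

/-- The coefficientwise Frobenius of `F_k(N)`, `k` perfect of characteristic `ℓ`. -/
def ghrFrob (ℓ : ℕ) [Fact ℓ.Prime] [CharP k ℓ] [PerfectRing k ℓ] :
    SemilinearAut k (modularFunctionFieldFullC k N) :=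
  ghrCoeffAut N (frobeniusEquiv k ℓ)

end CoeffAut

/-- The `ℓ¹`-norm of a finitely supported integer-valued function. -/
def ghrNorm1 {X : Type*} (D : X →₀ ℤ) : ℕ := D.sum fun _ n => n.natAbs

end Fermat.Agent.G
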