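/-
Program G, package G/Kron (prefix ghr), leaf (K1): the abstract boundedness lemma
`ghr_eq_zero_of_bounded` (pure algebra on `Finsupp`), helper prefix `ghrb_`.

If `Ψ : Div(F) →+ (X →₀ ℤ)` kills principal divisors, `‖Ψ P‖₁ ≤ C` for every place `P`, all places
have degree `1` and every divisor of degree `≥ g₀` is linearly equivalent to an effective one, then
`Ψ = 0` on divisors of degree `0`:  for places `P, Q` and every `m`,
`m (P - Q) + g₀ P ~ E_m ≥ 0` with `deg E_m = g₀`, so
`m ‖Ψ P - Ψ Q‖₁ ≤ ‖Ψ E_m‖₁ + g₀ ‖Ψ P‖₁ ≤ 2 g₀ C`, hence `Ψ P = Ψ Q`, hence `Ψ D = deg D • Ψ P`.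
-/
import Mathlib
import Fermat.Agent.G.Kron.Defs

set_option autoImplicit false

noncomputable section

namespace Fermat.Agent.G

open ModularCurve AlgebraicCurve

/-! ### the `ℓ¹`-norm -/

section Norm

variable {X : Type*}

theorem ghrb_norm1_eq_sum (f : X →₀ ℤ) (s : Finset X) (hs : f.support ⊆ s) :
    ghrNorm1 f = ∑ x ∈ s, (f x).natAbs := by
  unfold ghrNorm1
  exact Finsupp.sum_of_support_subset f hs _ (fun _ _ => Int.natAbs_zero)

theorem ghrb_norm1_zero : ghrNorm1 (0 : X →₀ ℤ) = 0 := by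
  simp [ghrNorm1]

theorem ghrb_norm1_add_le (f g : X →₀ ℤ) : ghrNorm1 (f + g) ≤ ghrNorm1 f + ghrNorm1 g := by
  classical
  rw [ghrb_norm1_eq_sum (f + g) (f.support ∪ g.support) Finsupp.support_add,
    ghrb_norm1_eq_sum f (f.support ∪ g.support) Finset.subset_union_left,
    ghrb_norm1_eq_sum g (f.support ∪ g.support) Finset.subset_union_right,
    ← Finset.sum_add_distrib]
  refine Finset.sum_le_sum fun x _ => ?_
  rw [Finsupp.add_apply]
  exact Int.natAbs_add_le _ _

theorem ghrb_norm1_zsmul (n : ℤ) (f : X →₀ ℤ) : ghrNorm1 (n • f) = n.natAbs * ghrNorm1 f := by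
  classical
  have hs : (n • f).support ⊆ f.support := Finsupp.support_smul
  rw [ghrb_norm1_eq_sum (n • f) f.support hs, ghrb_norm1_eq_sum f f.support subset_rfl,
    Finset.mul_sum]
  refine Finset.sum_congr rfl fun x _ => ?_
  rw [Finsupp.smul_apply, smul_eq_mul, Int.natAbs_mul]

theorem ghrb_norm1_neg (f : X →₀ ℤ) : ghrNorm1 (-f) = ghrNorm1 f := by
  have h := ghrb_norm1_zsmul (-1) f
  rw [neg_one_zsmul] at h
  rw [h]
  simp

theorem ghrb_norm1_sub_le (f g : X →₀ ℤ) : ghrNorm1 (f - g) ≤ ghrNorm1 f + ghrNorm1 g := by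
  rw [sub_eq_add_neg]
  refine (ghrb_norm1_add_le _ _).trans ?_
  rw [ghrb_norm1_neg]

theorem ghrb_eq_zero_of_norm1 (f : X →₀ ℤ) (h : ghrNorm1 f = 0) : f = 0 := by
  classical
  rw [ghrb_norm1_eq_sum f f.support subset_rfl, Finset.sum_eq_zero_iff] at h
  ext x
  by_contra hx
  have hx' : x ∈ f.support := Finsupp.mem_support_iff.2 hx
  exact hx (Int.natAbs_eq_zero.1 (h x hx'))

theorem ghrb_norm1_sum_le {ι : Type*} (s : Finset ι) (G : ι → X →₀ ℤ) :
    ghrNorm1 (∑ i ∈ s, G i) ≤ ∑ i ∈ s, ghrNorm1 (G i) := by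
  classical
  induction s using Finset.induction_on with
  | empty => simp [ghrb_norm1_zero]
  | insert a s ha ih =>
    rw [Finset.sum_insert ha, Finset.sum_insert ha]
    exact (ghrb_norm1_add_le _ _).trans (Nat.add_le_add_left ih _)

end Norm

/-! ### divisors -/

section Main

variable {K F : Type*} [Field K] [Field F] [Algebra K F] {X : Type*}

theorem ghrb_single_eq_zsmul (P : Place K F) (n : ℤ) :
    (Finsupp.single P n : Divisor K F) = n • (Finsupp.single P 1 : Divisor K F) := by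
  rw [Finsupp.smul_single, smul_eq_mul, mul_one]

/-- `‖Ψ D‖₁ ≤ ‖D‖₁ C`. -/
theorem ghrb_norm1_map_le (Ψ : Divisor K F →+ (X →₀ ℤ)) (C : ℕ)
    (hC : ∀ P : Place K F, ghrNorm1 (Ψ (Finsupp.single P 1)) ≤ C) (D : Divisor K F) :
    ghrNorm1 (Ψ D) ≤ ghrNorm1 D * C := by
  classical
  have hD : D = ∑ P ∈ D.support, (D P) • (Finsupp.single P 1 : Divisor K F) := by
    conv_lhs => rw [← Finsupp.sum_single D]
    rw [Finsupp.sum]
    exact Finset.sum_congr rfl fun P _ => ghrb_single_eq_zsmul P (D P)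
  have h1 : Ψ D = ∑ P ∈ D.support, (D P) • Ψ (Finsupp.single P 1) := by
    conv_lhs => rw [hD]
    rw [map_sum]
    exact Finset.sum_congr rfl fun P _ => map_zsmul Ψ _ _
  rw [h1, ghrb_norm1_eq_sum D D.support subset_rfl, Finset.sum_mul]
  refine (ghrb_norm1_sum_le _ _).trans (Finset.sum_le_sum fun P _ => ?_)
  rw [ghrb_norm1_zsmul]
  exact Nat.mul_le_mul_left _ (hC P)

/-- the degree of an effective divisor is its `ℓ¹`-norm, if all places have degree one. -/
theorem ghrb_degree_eq_norm1 (hdeg : ∀ P : Place K F, P.deg = 1) (E : Divisor K F)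
    (hE : 0 ≤ E) : Divisor.degree E = (ghrNorm1 E : ℤ) := by
  classical
  have h1 : Divisor.degree E = ∑ P ∈ E.support, E P := by
    conv_lhs => rw [← Finsupp.sum_single E]
    rw [Finsupp.sum, map_sum]
    refine Finset.sum_congr rfl fun P _ => ?_
    rw [Divisor.degree_single, hdeg, Nat.cast_one, mul_one]
  rw [h1, ghrb_norm1_eq_sum E E.support subset_rfl, Nat.cast_sum]
  refine Finset.sum_congr rfl fun P _ => ?_
  have hP : 0 ≤ E P := by
    have := Finsupp.le_def.1 hE P
    simpa using this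
  rw [Int.natCast_natAbs, abs_of_nonneg hP]

/-- the general formula `Ψ D = deg D • Ψ O` once `Ψ` is constant on places. -/
theorem ghrb_map_eq_degree_smul (hdeg : ∀ P : Place K F, P.deg = 1)
    (Ψ : Divisor K F →+ (X →₀ ℤ)) (O : Place K F)
    (hconst : ∀ P : Place K F, Ψ (Finsupp.single P 1) = Ψ (Finsupp.single O 1))
    (D : Divisor K F) : Ψ D = Divisor.degree D • Ψ (Finsupp.single O 1) := by
  induction D using Finsupp.induction_linear with
  | zero => simp
  | add f g hf hg => rw [map_add, map_add, hf, hg, add_smul]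
  | single P n =>
    rw [Divisor.degree_single, hdeg, Nat.cast_one, mul_one, ghrb_single_eq_zsmul, map_zsmul,
      hconst P]

end Main

/-- (K1) A homomorphism `Ψ` from divisors to finitely supported integer functions that kills
principal divisors and is bounded on single places vanishes on divisors of degree `0`, provided
every divisor of degree `≥ g₀` is linearly equivalent to an effective divisor. -/
theorem ghr_eq_zero_of_bounded {K F : Type*} [Field K] [Field F] [Algebra K F] {X : Type*}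
    (hdeg : ∀ P : Place K F, P.deg = 1) (g₀ : ℕ)
    (hR : ∀ D : Divisor K F, (g₀ : ℤ) ≤ Divisor.degree D →
      ∃ E : Divisor K F, 0 ≤ E ∧ D - E ∈ Divisor.principal (K := K) (F := F))
    (Ψ : Divisor K F →+ (X →₀ ℤ))
    (hprin0 : ∀ D ∈ Divisor.principal (K := K) (F := F), Divisor.degree D = 0)
    (hprin : ∀ D ∈ Divisor.principal (K := K) (F := F), Ψ D = 0)
    (C : ℕ) (hC : ∀ P : Place K F, ghrNorm1 (Ψ (Finsupp.single P 1)) ≤ C) :
    ∀ D ∈ Divisor.degZero (K := K) (F := F), Ψ D = 0 := by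
  -- `Ψ` is constant on places
  have hconst : ∀ P Q : Place K F, Ψ (Finsupp.single P 1) = Ψ (Finsupp.single Q 1) := by
    intro P Q
    set v : X →₀ ℤ := Ψ (Finsupp.single P 1) - Ψ (Finsupp.single Q 1) with hv
    have hbound : ∀ m : ℕ, m * ghrNorm1 v ≤ g₀ * C + g₀ * C := by
      intro m
      set Dm : Divisor K F :=
        (m : ℤ) • ((Finsupp.single P 1 : Divisor K F) - Finsupp.single Q 1) +
          (g₀ : ℤ) • (Finsupp.single P 1 : Divisor K F) with hDm
      have hdegDm : Divisor.degree Dm = (g₀ : ℤ) := by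
        rw [hDm, map_add, map_zsmul, map_zsmul, map_sub, Divisor.degree_single,
          Divisor.degree_single, hdeg, hdeg]
        simp
      obtain ⟨E, hE, hDE⟩ := hR Dm hdegDm.ge
      have hdegE : Divisor.degree E = (g₀ : ℤ) := by
        have h0 := hprin0 _ hDE
        rw [map_sub, hdegDm] at h0
        linarith
      have hnE : ghrNorm1 E = g₀ := by
        have := ghrb_degree_eq_norm1 hdeg E hE
        rw [hdegE] at this
        exact_mod_cast this.symm
      have hΨ : Ψ Dm = Ψ E := by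
        have h0 := hprin _ hDE
        rw [map_sub, sub_eq_zero] at h0
        exact h0
      have hΨDm : Ψ Dm = (m : ℤ) • v + (g₀ : ℤ) • Ψ (Finsupp.single P 1) := by
        rw [hDm, map_add, map_zsmul, map_zsmul, map_sub]
      have hmv : (m : ℤ) • v = Ψ E - (g₀ : ℤ) • Ψ (Finsupp.single P 1) := by
        rw [← hΨ, hΨDm, add_sub_cancel_right]
      have h1 : ghrNorm1 ((m : ℤ) • v) = m * ghrNorm1 v := by
        rw [ghrb_norm1_zsmul, Int.natAbs_natCast]
      rw [← h1, hmv]
      refine (ghrb_norm1_sub_le _ _).trans (Nat.add_le_add ?_ ?_)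
      · have := ghrb_norm1_map_le Ψ C hC E
        rwa [hnE] at this
      · rw [ghrb_norm1_zsmul, Int.natAbs_natCast]
        exact Nat.mul_le_mul_left _ (hC P)
    have hzero : ghrNorm1 v = 0 := by
      by_contra hne
      have hpos : 1 ≤ ghrNorm1 v := Nat.one_le_iff_ne_zero.2 hne
      have h := hbound (g₀ * C + g₀ * C + 1)
      have h' : (g₀ * C + g₀ * C + 1) * 1 ≤ (g₀ * C + g₀ * C + 1) * ghrNorm1 v :=
        Nat.mul_le_mul_left _ hpos
      omega
    exact sub_eq_zero.1 (ghrb_eq_zero_of_norm1 v hzero)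
  intro D hD
  rcases isEmpty_or_nonempty (Place K F) with hemp | ⟨⟨O⟩⟩
  · have : D = 0 := Subsingleton.elim _ _
    rw [this, map_zero]
  · rw [ghrb_map_eq_degree_smul hdeg Ψ O (fun P => hconst P O) D,
      (Divisor.mem_degZero.1 hD), zero_smul]

end Fermat.Agent.G
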