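/-
Program G, package G/Kron (prefix ghr), leaf (K5a): boundedness of the `ℓ¹`-norm under the
reduction of divisors and under the Hecke correspondence (helper prefix `ghrn_`).

* `ghr_norm1_mapDomain_le` : `‖r_* D‖₁ ≤ ‖D‖₁` for any map of index sets `r`;
* `ghr_norm1_heckeDiv_single_le` : `T_ℓ P = α_* β^* P` is an effective divisor of degree
  `[F(N ℓ) : β F(N)]` (Prelude `Divisor.degree_correspondence` + the fundamental identity of
  `gff_heckeInputs`); all places have degree `1` (S24 `IsSepGen.deg_eq_one`), so the `ℓ¹`-norm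
  of `T_ℓ P` is that degree.

Also: invariance of the norm under the action of a semilinear automorphism on divisors
(`ghrn_norm1_smul`), and the norms of `single`, `n • D`, `D - E` (from `Kron/Bounded.lean`).
-/
import Fermat.Agent.G.Kron.Defs
import Fermat.Agent.G.Kron.Bounded
import Fermat.Agent.G.EsTor.Gal
import Fermat.Agent.G.FF.Main
import Fermat.Agent.S24.PlacesDefs
import Fermat.Agent.S24.PlacesCenter
import Fermat.Agent.S24.Degree
import Fermat.Agent.S18.A.Top
import Fermat.Prelude.Def_ModularCurve_HeckeModule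
import Fermat.Prelude.Def_ModularCurve_ReductionModL

set_option autoImplicit false
set_option synthInstance.maxHeartbeats 400000
set_option linter.style.haveILetI false

noncomputable section

namespace Fermat.Agent.G

open ModularCurve AlgebraicCurve IsLocalRing Fermat.Agent.S18 Fermat.Agent.S24

/-! ### the `ℓ¹`-norm: `single`, `mapDomain` -/

section Norm

variable {X Y : Type*}

theorem ghrn_norm1_single (x : X) (n : ℤ) : ghrNorm1 (Finsupp.single x n) = n.natAbs := by
  unfold ghrNorm1
  rw [Finsupp.sum_single_index]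
  exact Int.natAbs_zero

theorem ghrn_norm1_nsmul (n : ℕ) (D : X →₀ ℤ) : ghrNorm1 (n • D) = n * ghrNorm1 D := by
  rw [← natCast_zsmul, ghrb_norm1_zsmul, Int.natAbs_natCast]

/-- (K5a-1) the reduction of divisors does not increase the `ℓ¹`-norm. -/
theorem ghr_norm1_mapDomain_le {X Y : Type*} (r : X → Y) (D : X →₀ ℤ) :
    ghrNorm1 (Finsupp.mapDomain r D) ≤ ghrNorm1 D := by
  classical
  have h : Finsupp.mapDomain r D = ∑ x ∈ D.support, Finsupp.single (r x) (D x) := rfl
  rw [h]
  refine (ghrb_norm1_sum_le _ _).trans ?_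
  rw [ghrb_norm1_eq_sum D D.support subset_rfl]
  exact Finset.sum_le_sum fun x _ => (ghrn_norm1_single _ _).le

/-- an injective reindexing preserves the `ℓ¹`-norm. -/
theorem ghrn_norm1_mapDomain_of_injective (r : X → Y) (hr : Function.Injective r) (D : X →₀ ℤ) :
    ghrNorm1 (Finsupp.mapDomain r D) = ghrNorm1 D := by
  classical
  unfold ghrNorm1
  rw [Finsupp.sum_mapDomain_index_inj hr]

end Norm

/-! ### the action of semilinear automorphisms preserves the `ℓ¹`-norm -/

section Smul

variable {K F : Type*} [Field K] [Field F] [Algebra K F]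

theorem ghrn_norm1_smul (g : SemilinearAut K F) (D : Divisor K F) :
    ghrNorm1 (g • D) = ghrNorm1 D := by
  rw [SemilinearAut.divisor_smul_def]
  exact ghrn_norm1_mapDomain_of_injective _ (MulAction.injective g) D

end Smul

/-! ### effective divisors under pull-back and push-forward -/

section PushPull

variable {K F F' : Type*} [Field K] [Field F] [Field F']
  [Algebra K F] [Algebra K F'] [Algebra F F'] [IsScalarTower K F F']
  [Algebra.IsIntegral F F']

theorem ghrn_pushforward_nonneg (D : Divisor K F') (hD : 0 ≤ D) :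
    0 ≤ Divisor.pushforward F D := by
  classical
  rw [Finsupp.le_def]
  intro v
  rw [Divisor.pushforward_apply, Finsupp.coe_zero, Pi.zero_apply]
  refine Finset.sum_nonneg fun w _ => ?_
  split_ifs
  · have h0 : (0 : ℤ) ≤ D w := by simpa using Finsupp.le_def.1 hD w
    exact mul_nonneg h0 (Int.natCast_nonneg _)
  · exact le_rfl

theorem ghrn_pullback_nonneg [HasPrincipalDivisors K F'] (D : Divisor K F) (hD : 0 ≤ D) :
    0 ≤ Divisor.pullback F' D := by
  rw [Finsupp.le_def]
  intro w
  rw [Divisor.pullback_apply, Finsupp.coe_zero, Pi.zero_apply]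
  have h0 : (0 : ℤ) ≤ D (w.restrict F) := by simpa using Finsupp.le_def.1 hD (w.restrict F)
  exact mul_nonneg (Int.natCast_nonneg _) h0

end PushPull

section Along

variable {K F F' : Type*} [Field K] [Field F] [Field F'] [Algebra K F] [Algebra K F']
variable [HasPrincipalDivisors K F']

theorem ghrn_correspondence_nonneg (φ ψ : F →ₐ[K] F') (hφ : φ.toRingHom.IsIntegral)
    (hψ : ψ.toRingHom.IsIntegral) (D : Divisor K F) (hD : 0 ≤ D) :
    0 ≤ Divisor.correspondence φ ψ hφ hψ D := by
  rw [Divisor.correspondence_apply]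
  have h1 : 0 ≤ Divisor.pullbackAlong φ hφ D := by
    letI := algebraAlong φ
    haveI := isScalarTower_along φ
    haveI := isIntegral_along φ hφ
    exact ghrn_pullback_nonneg D hD
  letI := algebraAlong ψ
  haveI := isScalarTower_along ψ
  haveI := isIntegral_along ψ hψ
  exact ghrn_pushforward_nonneg _ h1

end Along

/-! ### the Hecke correspondence on a single place -/

/-- (K5a-2) `T_ℓ P` is an effective divisor of degree `[F(N ℓ) : β F(N)]`; all places have degree
`1`, so its `ℓ¹`-norm is that degree. -/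
theorem ghr_norm1_heckeDiv_single_le (N ℓ : ℕ) [NeZero N] [NeZero ℓ] (hℓ : ℓ.Prime)
    (hα : HeckeAlphaBarIntegral (AlgebraicClosure ℚ) N ℓ)
    (hβ : HeckeBetaBarIntegral (AlgebraicClosure ℚ) N ℓ)
    [HasPrincipalDivisors (AlgebraicClosure ℚ) (modularFunctionFieldBar (N * ℓ))]
    (P : Place (AlgebraicClosure ℚ) (modularFunctionFieldBar N)) :
    ghrNorm1 (heckeDivBar hα hβ (Finsupp.single P 1)) ≤
      finrankAlong (AlgebraicClosure ℚ) (heckeBetaBar (AlgebraicClosure ℚ) N ℓ) := by
  have hdeg : ∀ Q : Place (AlgebraicClosure ℚ) (modularFunctionFieldBar N), Q.deg = 1 :=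
    fun Q => (isSepGen_jBar N).deg_eq_one Q
  obtain ⟨_, hβ', _, _, hFI, _⟩ := gff_heckeInputs N ℓ hℓ
  have hFI' : FundamentalIdentityAlong (AlgebraicClosure ℚ)
      (heckeBetaBar (AlgebraicClosure ℚ) N ℓ) hβ := hFI
  have hE : 0 ≤ heckeDivBar hα hβ (Finsupp.single P 1) := by
    refine ghrn_correspondence_nonneg _ _ hβ hα _ ?_
    rw [Finsupp.le_def]
    intro Q
    rw [Finsupp.coe_zero, Pi.zero_apply]
    exact Finsupp.single_nonneg.2 zero_le_one Q
  have h1 := ghrb_degree_eq_norm1 hdeg _ hE
  have h2 : Divisor.degree (heckeDivBar hα hβ (Finsupp.single P 1)) =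
      (finrankAlong (AlgebraicClosure ℚ) (heckeBetaBar (AlgebraicClosure ℚ) N ℓ) : ℤ) *
        Divisor.degree (Finsupp.single P 1) :=
    Divisor.degree_correspondence _ _ hβ hα hFI' _
  rw [Divisor.degree_single, hdeg, Nat.cast_one, mul_one, mul_one] at h2
  rw [h1] at h2
  exact le_of_eq (by exact_mod_cast h2)

end Fermat.Agent.G
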