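/-
Program G, package G/Kron, row K4AB (prefix ghrg_): the reduction of divisors `r_*` commutes with
inertia and with Frobenius ON PRINCIPAL DIVISORS, for ANY place reduction `r` satisfying
`IsPlaceReductionModL A N r`.

* `ghr_red_inertia_principal` (K4a), `ghr_red_frob_principal` (K4b): VERBATIM from
  `G/Kron/Spec.lean`.
-/
import Fermat.Agent.G.Kron.Defs
import Fermat.Agent.S24.PlacesDefs
import Fermat.Agent.S24.Degree
import Fermat.Agent.S18.A.Defs
import Fermat.Prelude.Def_ModularCurve_HeckeModule
import Fermat.Prelude.Def_ModularCurve_ReductionModL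
import Fermat.Agent.G.EsTor.Gal

set_option autoImplicit false
set_option synthInstance.maxHeartbeats 400000

noncomputable section

namespace Fermat.Agent.G

open ModularCurve AlgebraicCurve IsLocalRing Fermat.Agent.S18

/-- inertia acts trivially on the residue field -/
theorem ghrg_getDecRes_of_mem_inertia (A : ValuationSubring (AlgebraicClosure ℚ))
    (τ : A.decompositionSubgroup ℚ) (hτ : τ ∈ A.inertiaSubgroup ℚ) :
    getDecRes A τ = RingHom.id _ := by
  ext x
  have h1 : MulSemiringAction.toRingAut (A.decompositionSubgroup ℚ) (ResidueField A) τ = 1 := hτ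
  have h2 := congrArg (fun e : RingAut (ResidueField A) => e x) h1
  exact h2

/-- a Frobenius acts on the residue field by the Frobenius -/
theorem ghrg_getDecRes_of_isFrobeniusAt {ℓ : ℕ} [Fact ℓ.Prime]
    (A : ValuationSubring (AlgebraicClosure ℚ)) [CharP (ResidueField A) ℓ]
    [PerfectRing (ResidueField A) ℓ]
    (σ : AlgebraicClosure ℚ ≃ₐ[ℚ] AlgebraicClosure ℚ) (hσ : A.IsFrobeniusAt σ ℓ) :
    getDecRes A ⟨σ, hσ.mem_decompositionSubgroup⟩ =
      ((frobeniusEquiv (ResidueField A) ℓ : ResidueField A ≃+* ResidueField A) :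
        ResidueField A →+* ResidueField A) := by
  ext x
  have h := hσ.smul_residue_eq x
  rw [RingHom.coe_coe, frobeniusEquiv_apply, frobenius_def]
  exact h

section Principal

variable {N : ℕ} [NeZero N] {ℓ : ℕ} [Fact ℓ.Prime]
variable {A : ValuationSubring (AlgebraicClosure ℚ)}

/-- The divisor of the conjugate of a function is the conjugate of its divisor. -/
theorem ghrg_smul_div {K F : Type*} [Field K] [Field F] [Algebra K F] (g : SemilinearAut K F)
    (E : Divisor K F) (f : F) (hE : ∀ P, E P = P.ord f) (P : Place K F) :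
    (g • E) P = P.ord (g • f) := by
  rw [SemilinearAut.divisor_smul_apply, hE (g⁻¹ • P)]
  have h := SemilinearAut.ord_smul g (g⁻¹ • P) f
  rw [smul_inv_smul] at h
  exact h.symm

theorem ghrg_mapDomain_neg {X Y : Type*} (r : X → Y) (D : X →₀ ℤ) :
    Finsupp.mapDomain r (-D) = -Finsupp.mapDomain r D :=
  map_neg (Finsupp.mapDomain.addMonoidHom r) D

variable (r : Place (AlgebraicClosure ℚ) (modularFunctionFieldBar N) →
  Place (ResidueField A) (modularFunctionFieldFullC (ResidueField A) N))

/-- The basic step: for `τ` in the decomposition group and `E = div y` an integral principal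
divisor, `r_* (τ E)` is the divisor of the reduction of `τ y`, which is the coefficientwise
conjugate of the reduction of `y` by the image of `τ` in `Aut k`. -/
theorem ghrg_mapDomain_smul_integral (hr : IsPlaceReductionModL A N r)
    (τ : A.decompositionSubgroup ℚ)
    (y : LaurentSeries A) (hy : S18Good N A y) (hne : coeffMap (residue A) y ≠ 0)
    (E : Divisor (AlgebraicClosure ℚ) (modularFunctionFieldBar N))
    (hE : ∀ P, E P = P.ord hy.gen)
    (Q : Place (ResidueField A) (modularFunctionFieldFullC (ResidueField A) N)) :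
    Finsupp.mapDomain r (arithmeticGalois (modularFunctionFieldFull N)
        (τ : AlgebraicClosure ℚ ≃ₐ[ℚ] AlgebraicClosure ℚ) • E) Q =
      Q.ord (⟨coeffMap (getDecRes A τ) (coeffMap (residue A) y),
        s18dd_coeffMap_mem_full (getDecRes A τ) N hy.2⟩ :
          modularFunctionFieldFullC (ResidueField A) N) := by
  have k := getl_good_dec N A τ hy
  have hne' : coeffMap (residue A) (coeffMap (getDecHom A τ) y) ≠ 0 := by
    rw [getl_spec_dec]
    intro h0
    apply hne
    have hinj : Function.Injective (getDecRes A τ) := (getDecRes A τ).injective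
    ext n
    have h3 : (coeffMap (getDecRes A τ) (coeffMap (residue A) y)).coeff n = 0 := by
      rw [h0]; rfl
    rw [coeffMap_coeff] at h3
    rw [HahnSeries.coeff_zero]
    exact hinj (h3.trans (map_zero _).symm)
  have hdiv : ∀ P, (arithmeticGalois (modularFunctionFieldFull N)
      (τ : AlgebraicClosure ℚ ≃ₐ[ℚ] AlgebraicClosure ℚ) • E) P =
      P.ord (⟨coeffMap A.subtype (coeffMap (getDecHom A τ) y), k.1⟩ :
        laurentBaseChange (AlgebraicClosure ℚ) (modularFunctionFieldFull N)) := by
    intro P
    rw [ghrg_smul_div _ E hy.gen hE P, ← getl_gen_dec N A τ hy]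
    rfl
  have h := hr.2 (coeffMap (getDecHom A τ) y) k.1 k.2 hne' _ hdiv Q
  exact h.trans (congrArg Q.ord (Subtype.ext (getl_spec_dec A τ y)))

/-- (K4a) inertia. -/
theorem ghr_red_inertia_principal (hr : IsPlaceReductionModL A N r)
    (hgen : PrincipalGeneratedByIntegral A (residue A) N)
    (σ : AlgebraicClosure ℚ ≃ₐ[ℚ] AlgebraicClosure ℚ) (hσ : σ ∈ A.inertiaSubgroupIn ℚ)
    (D : Divisor (AlgebraicClosure ℚ) (modularFunctionFieldBar N))
    (hD : D ∈ Divisor.principal (K := AlgebraicClosure ℚ) (F := modularFunctionFieldBar N)) :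
    Finsupp.mapDomain r (arithmeticGalois (modularFunctionFieldFull N) σ • D) =
      Finsupp.mapDomain r D := by
  obtain ⟨τ, hτ, rfl⟩ := hσ
  refine AddMonoidHom.eqOn_closure
    (f := (Finsupp.mapDomain.addMonoidHom r).comp
      (DistribSMul.toAddMonoidHom (Divisor (AlgebraicClosure ℚ) (modularFunctionFieldBar N))
        (arithmeticGalois (modularFunctionFieldFull N)
          ((A.decompositionSubgroup ℚ).subtype τ))))
    (g := Finsupp.mapDomain.addMonoidHom r) ?_ (hgen hD)
  rintro E ⟨y, hy, hyk, hne, hDy⟩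
  have hgood : S18Good N A y := ⟨hy, hyk⟩
  show Finsupp.mapDomain r (arithmeticGalois (modularFunctionFieldFull N)
    ((A.decompositionSubgroup ℚ).subtype τ) • E) = Finsupp.mapDomain r E
  ext Q
  have h1 := ghrg_mapDomain_smul_integral r hr τ y hgood hne E hDy Q
  have h2 := hr.2 y hy hyk hne E hDy Q
  rw [h2]
  refine h1.trans ?_
  congr 1
  apply Subtype.ext
  show coeffMap (getDecRes A τ) (coeffMap (residue A) y) = coeffMap (residue A) y
  rw [ghrg_getDecRes_of_mem_inertia A τ hτ, coeffMap_id]

/-- (K4b) Frobenius. -/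
theorem ghr_red_frob_principal [CharP (ResidueField A) ℓ] [PerfectRing (ResidueField A) ℓ]
    (hr : IsPlaceReductionModL A N r)
    (hgen : PrincipalGeneratedByIntegral A (residue A) N)
    (σ : AlgebraicClosure ℚ ≃ₐ[ℚ] AlgebraicClosure ℚ) (hσ : A.IsFrobeniusAt σ ℓ)
    (D : Divisor (AlgebraicClosure ℚ) (modularFunctionFieldBar N))
    (hD : D ∈ Divisor.principal (K := AlgebraicClosure ℚ) (F := modularFunctionFieldBar N)) :
    Finsupp.mapDomain r (arithmeticGalois (modularFunctionFieldFull N) σ • D) =
      ghrFrob (k := ResidueField A) N ℓ • Finsupp.mapDomain r D := by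
  refine AddMonoidHom.eqOn_closure
    (f := (Finsupp.mapDomain.addMonoidHom r).comp
      (DistribSMul.toAddMonoidHom (Divisor (AlgebraicClosure ℚ) (modularFunctionFieldBar N))
        (arithmeticGalois (modularFunctionFieldFull N) σ)))
    (g := (DistribSMul.toAddMonoidHom
        (Divisor (ResidueField A) (modularFunctionFieldFullC (ResidueField A) N))
        (ghrFrob (k := ResidueField A) N ℓ)).comp (Finsupp.mapDomain.addMonoidHom r))
    ?_ (hgen hD)
  rintro E ⟨y, hy, hyk, hne, hDy⟩
  have hgood : S18Good N A y := ⟨hy, hyk⟩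
  show Finsupp.mapDomain r (arithmeticGalois (modularFunctionFieldFull N) σ • E) =
    ghrFrob (k := ResidueField A) N ℓ • Finsupp.mapDomain r E
  ext Q
  have h1 := ghrg_mapDomain_smul_integral r hr ⟨σ, hσ.mem_decompositionSubgroup⟩ y hgood hne E
    hDy Q
  have h2 := ghrg_smul_div (ghrFrob (k := ResidueField A) N ℓ) (Finsupp.mapDomain r E)
    (⟨coeffMap (residue A) y, hyk⟩ : modularFunctionFieldFullC (ResidueField A) N)
    (hr.2 y hy hyk hne E hDy) Q
  have h3 : (⟨coeffMap (getDecRes A ⟨σ, hσ.mem_decompositionSubgroup⟩)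
      (coeffMap (residue A) y), s18dd_coeffMap_mem_full (getDecRes A
        ⟨σ, hσ.mem_decompositionSubgroup⟩) N hgood.2⟩ :
        modularFunctionFieldFullC (ResidueField A) N) =
      ghrFrob (k := ResidueField A) N ℓ •
        (⟨coeffMap (residue A) y, hyk⟩ : modularFunctionFieldFullC (ResidueField A) N) := by
    apply Subtype.ext
    rw [ghrFrob, coe_ghrCoeffAut_smul, ghrg_getDecRes_of_isFrobeniusAt A σ hσ]
  rw [h3] at h1
  exact h1.trans h2.symm

end Principal

end Fermat.Agent.G
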