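/-
Program G, package G/Kron, row K4C (prefix ghrh_): KRONECKER CONGRUENCE IN DIVISOR FORM on principal
divisors, for ANY place reduction `r` with `IsPlaceReductionModL A N r` :

  `r_* (T_ℓ D) = Frob • r_* D + ℓ • Frob⁻¹ • r_* D`     (`D` principal).

On a generator `E = div y` (`y` good integral, `ȳ ≠ 0`) : `T_ℓ E = div (N_α (β y))`
(`gff_correspondence_ord`), `N_α (β y) = U` good integral with `Ū = ȳ(q^ℓ) · ȳ^φ` (`gcj_norm_congr`),
and in `F_k(N)` : `ȳ(q^ℓ) = (Frob⁻¹ ȳ)^ℓ` (`gcjf_pow_char`, `k` perfect).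

* `ghr_red_hecke_principal` (K4c) : VERBATIM from `G/Kron/Spec.lean`.
-/
import Fermat.Agent.G.Kron.Defs
import Fermat.Agent.G.Kron.PrincipalGal
import Fermat.Agent.G.Conj.Main
import Fermat.Agent.G.Conj.Formal
import Fermat.Agent.G.FF.Main
import Fermat.Agent.S24.PlacesDefs
import Fermat.Agent.S24.Degree
import Fermat.Agent.S18.A.Defs
import Fermat.Prelude.Def_ModularCurve_HeckeModule
import Fermat.Prelude.Def_ModularCurve_ReductionModL

set_option autoImplicit false
set_option synthInstance.maxHeartbeats 400000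
set_option linter.unusedSectionVars false
set_option linter.unusedVariables false

noncomputable section

namespace Fermat.Agent.G

open ModularCurve AlgebraicCurve IsLocalRing Fermat.Agent.S18 Fermat.Agent.S24

section Principal

variable {N : ℕ} [NeZero N] {ℓ : ℕ} [Fact ℓ.Prime]
variable {A : ValuationSubring (AlgebraicClosure ℚ)}

/-- the inverse of the coefficientwise Frobenius acts coefficientwise by the inverse Frobenius -/
theorem ghrh_coe_frob_inv_smul [CharP (ResidueField A) ℓ] [PerfectRing (ResidueField A) ℓ]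
    (x : modularFunctionFieldFullC (ResidueField A) N) :
    (((ghrFrob (k := ResidueField A) N ℓ)⁻¹ • x : modularFunctionFieldFullC (ResidueField A) N) :
      LaurentSeries (ResidueField A)) =
      coeffMap ((frobeniusEquiv (ResidueField A) ℓ).symm : ResidueField A →+* ResidueField A)
        (x : LaurentSeries (ResidueField A)) := by
  have h : (ghrFrob (k := ResidueField A) N ℓ)⁻¹ • x =
      ghrCoeffAut N (frobeniusEquiv (ResidueField A) ℓ).symm • x := by
    rw [inv_smul_eq_iff]
    apply Subtype.ext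
    rw [ghrFrob, coe_ghrCoeffAut_smul, coe_ghrCoeffAut_smul, coeffMap_coeffMap,
      coeffMap_congr (g := RingHom.id (ResidueField A))
        (RingHom.ext fun a => (frobeniusEquiv (ResidueField A) ℓ).apply_symm_apply a)
        (x : LaurentSeries (ResidueField A)),
      coeffMap_id]
  rw [h, coe_ghrCoeffAut_smul]

variable (r : Place (AlgebraicClosure ℚ) (modularFunctionFieldBar N) →
  Place (ResidueField A) (modularFunctionFieldFullC (ResidueField A) N))

/-- the generator step -/
theorem ghrh_mapDomain_hecke_integral [CharP (ResidueField A) ℓ] [PerfectRing (ResidueField A) ℓ]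
    (hℓN : ¬ ℓ ∣ N) (hA : A.LiesOverPrime ℓ)
    (hr : IsPlaceReductionModL A N r) :
    haveI : NeZero ℓ := ⟨(Fact.out : ℓ.Prime).ne_zero⟩
    ∀ (hα : HeckeAlphaBarIntegral (AlgebraicClosure ℚ) N ℓ)
      (hβ : HeckeBetaBarIntegral (AlgebraicClosure ℚ) N ℓ)
      [HasPrincipalDivisors (AlgebraicClosure ℚ) (modularFunctionFieldBar (N * ℓ))]
      (y : LaurentSeries A) (hy : S18Good N A y) (hne : coeffMap (residue A) y ≠ 0)
      (E : Divisor (AlgebraicClosure ℚ) (modularFunctionFieldBar N))
      (hE : ∀ P, E P = P.ord hy.gen)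
      (Q : Place (ResidueField A) (modularFunctionFieldFullC (ResidueField A) N)),
      Finsupp.mapDomain r (heckeDivBar hα hβ E) Q =
        Q.ord (ghrFrob (k := ResidueField A) N ℓ • hy.spec) +
          ℓ * Q.ord ((ghrFrob (k := ResidueField A) N ℓ)⁻¹ • hy.spec) := by
  have : NeZero ℓ := ⟨(Fact.out : ℓ.Prime).ne_zero⟩
  intro hα hβ _ y hy hne E hE Q
  have hℓ : ℓ.Prime := Fact.out
  -- the function `N_α (β y)`
  obtain ⟨hα', hβ', hP, hfin, hFI, hN⟩ := gff_heckeInputs N ℓ hℓ
  have hgen0 : hy.gen ≠ 0 := by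
    intro h0
    apply hne
    have h1 : coeffMap A.subtype y = 0 := congrArg Subtype.val h0
    have h2 : y = 0 := by
      ext n
      have := congrArg (fun s => HahnSeries.coeff s n) h1
      simpa using this
    rw [h2, map_zero]
  have hdivT : ∀ P, (heckeDivBar hα hβ E) P = P.ord (gHeckeFun N ℓ hy.gen) := by
    intro P
    have h := gff_correspondence_ord (heckeBetaBar (AlgebraicClosure ℚ) N ℓ)
      (heckeAlphaBar (AlgebraicClosure ℚ) N ℓ) hβ hα hfin hN E 1 hy.gen hgen0
      (fun v => by rw [one_mul, hE]) P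
    rw [one_mul] at h
    exact h
  -- Kronecker congruence
  obtain ⟨U, hU, hUgen, hUred⟩ := gcj_norm_congr N hℓN A hA (frobenius (ResidueField A) ℓ)
    (fun x => frobenius_def ℓ x) y hy
  -- the identity in `F_k(N)`
  have hident : hU.spec = ((ghrFrob (k := ResidueField A) N ℓ)⁻¹ • hy.spec) ^ ℓ *
      (ghrFrob (k := ResidueField A) N ℓ • hy.spec) := by
    apply Subtype.ext
    show coeffMap (residue A) U = _
    rw [hUred]
    show _ = (((ghrFrob (k := ResidueField A) N ℓ)⁻¹ • hy.spec :
      modularFunctionFieldFullC (ResidueField A) N) : LaurentSeries (ResidueField A)) ^ ℓ *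
      ((ghrFrob (k := ResidueField A) N ℓ • hy.spec :
        modularFunctionFieldFullC (ResidueField A) N) : LaurentSeries (ResidueField A))
    rw [ghrh_coe_frob_inv_smul, ghrFrob, coe_ghrCoeffAut_smul, gcjf_pow_char]
    have h1 : (frobenius (ResidueField A) ℓ).comp
        ((frobeniusEquiv (ResidueField A) ℓ).symm : ResidueField A →+* ResidueField A) =
        RingHom.id _ := by
      ext a
      show frobenius (ResidueField A) ℓ ((frobeniusEquiv (ResidueField A) ℓ).symm a) = a
      exact frobenius_apply_frobeniusEquiv_symm (ResidueField A) ℓ a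
    have h2 : ((frobeniusEquiv (ResidueField A) ℓ : ResidueField A ≃+* ResidueField A) :
        ResidueField A →+* ResidueField A) = frobenius (ResidueField A) ℓ := by
      ext a
      rfl
    have e1 : coeffMap (frobenius (ResidueField A) ℓ)
        (coeffMap ((frobeniusEquiv (ResidueField A) ℓ).symm : ResidueField A →+* ResidueField A)
          (hy.spec : LaurentSeries (ResidueField A))) =
        (hy.spec : LaurentSeries (ResidueField A)) := by
      rw [coeffMap_coeffMap, h1, coeffMap_id]
    rw [e1, h2]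
    rfl
  have hspec0 : hy.spec ≠ 0 := fun h0 => hne (congrArg Subtype.val h0)
  have hF0 : ghrFrob (k := ResidueField A) N ℓ • hy.spec ≠ 0 := by
    intro h0
    apply hspec0
    have := congrArg (fun z => (ghrFrob (k := ResidueField A) N ℓ)⁻¹ • z) h0
    simpa using this
  have hFi0 : (ghrFrob (k := ResidueField A) N ℓ)⁻¹ • hy.spec ≠ 0 := by
    intro h0
    apply hspec0
    have := congrArg (fun z => (ghrFrob (k := ResidueField A) N ℓ) • z) h0
    simpa using this
  have hUne : coeffMap (residue A) U ≠ 0 := by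
    intro h0
    have h1 : hU.spec = 0 := Subtype.ext h0
    rw [hident] at h1
    exact mul_ne_zero (pow_ne_zero _ hFi0) hF0 h1
  have h := hr.2 U hU.1 hU.2 hUne (heckeDivBar hα hβ E)
    (fun P => by rw [hdivT P, ← hUgen]; rfl) Q
  rw [h]
  show Q.ord hU.spec = _
  rw [hident, Q.ord_mul (pow_ne_zero _ hFi0) hF0, ← zpow_natCast, Q.ord_zpow]
  ring

/-- (K4c) Hecke: KRONECKER CONGRUENCE in divisor form, on principal divisors. -/
theorem ghr_red_hecke_principal [CharP (ResidueField A) ℓ] [PerfectRing (ResidueField A) ℓ]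
    (hℓN : ¬ ℓ ∣ N) (hA : A.LiesOverPrime ℓ)
    (hr : IsPlaceReductionModL A N r)
    (hgen : PrincipalGeneratedByIntegral A (residue A) N) :
    haveI : NeZero ℓ := ⟨(Fact.out : ℓ.Prime).ne_zero⟩
    ∀ (hα : HeckeAlphaBarIntegral (AlgebraicClosure ℚ) N ℓ)
      (hβ : HeckeBetaBarIntegral (AlgebraicClosure ℚ) N ℓ)
      [HasPrincipalDivisors (AlgebraicClosure ℚ) (modularFunctionFieldBar (N * ℓ))]
      (D : Divisor (AlgebraicClosure ℚ) (modularFunctionFieldBar N))
      (_ : D ∈ Divisor.principal (K := AlgebraicClosure ℚ) (F := modularFunctionFieldBar N)),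
      Finsupp.mapDomain r (heckeDivBar hα hβ D) =
        ghrFrob (k := ResidueField A) N ℓ • Finsupp.mapDomain r D + ℓ • ((ghrFrob (k := ResidueField A) N ℓ)⁻¹ • Finsupp.mapDomain r D) := by
  have : NeZero ℓ := ⟨(Fact.out : ℓ.Prime).ne_zero⟩
  intro hα hβ _ D hD
  let Dk := Divisor (ResidueField A) (modularFunctionFieldFullC (ResidueField A) N)
  refine AddMonoidHom.eqOn_closure
    (f := (Finsupp.mapDomain.addMonoidHom r).comp (heckeDivBar hα hβ))
    (g := (DistribSMul.toAddMonoidHom Dk (ghrFrob (k := ResidueField A) N ℓ)).comp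
        (Finsupp.mapDomain.addMonoidHom r) +
      ℓ • ((DistribSMul.toAddMonoidHom Dk (ghrFrob (k := ResidueField A) N ℓ)⁻¹).comp
        (Finsupp.mapDomain.addMonoidHom r)))
    ?_ (hgen hD)
  rintro E ⟨y, hy, hyk, hne, hDy⟩
  have hgood : S18Good N A y := ⟨hy, hyk⟩
  show Finsupp.mapDomain r (heckeDivBar hα hβ E) =
    ghrFrob (k := ResidueField A) N ℓ • Finsupp.mapDomain r E +
      ℓ • ((ghrFrob (k := ResidueField A) N ℓ)⁻¹ • Finsupp.mapDomain r E)
  ext Q
  have h1 := ghrh_mapDomain_hecke_integral r hℓN hA hr hα hβ y hgood hne E hDy Q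
  have hE' := hr.2 y hy hyk hne E hDy
  have h2 := ghrg_smul_div (ghrFrob (k := ResidueField A) N ℓ) (Finsupp.mapDomain r E)
    hgood.spec hE' Q
  have h3 := ghrg_smul_div (ghrFrob (k := ResidueField A) N ℓ)⁻¹ (Finsupp.mapDomain r E)
    hgood.spec hE' Q
  rw [h1, Finsupp.add_apply, Finsupp.smul_apply, h2, h3, nsmul_eq_mul]

end Principal

end Fermat.Agent.G
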