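/-
Program G, package G/Kron (prefix ghr), leaves (K0a), (K0b): the residue field of a valuation
subring of `ℚ̄` above `ℓ` has characteristic `ℓ` and is perfect (helper prefix `ghrr0_`).
-/
import Mathlib
import Fermat.Prelude.Def_FLTPrelim_Ramification

set_option autoImplicit false

noncomputable section

namespace Fermat.Agent.G

open IsLocalRing

/-- an `n`-th root of an element of a valuation subring lies in the valuation subring. -/
theorem ghrr0_mem_of_pow_mem {L : Type*} [Field L] (A : ValuationSubring L) {n : ℕ} (hn : n ≠ 0)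
    {y : L} (hy : y ^ n ∈ A) : y ∈ A := by
  rcases A.mem_or_inv_mem y with h | h
  · exact h
  · rcases eq_or_ne y 0 with rfl | hy0
    · exact A.zero_mem
    obtain ⟨m, rfl⟩ : ∃ m, n = m + 1 := ⟨n - 1, by omega⟩
    have : y = y ^ (m + 1) * (y⁻¹) ^ m := by
      rw [pow_succ, inv_pow, mul_assoc, mul_comm y, ← mul_assoc, mul_inv_cancel₀ (pow_ne_zero m hy0),
        one_mul]
    rw [this]
    exact A.mul_mem _ _ hy (pow_mem h m)

/-- (K0a) the residue field of a valuation subring of `ℚ̄` over `ℓ` has characteristic `ℓ`. -/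
theorem ghr_charP_residueField {ℓ : ℕ} (hℓ : ℓ.Prime) (A : ValuationSubring (AlgebraicClosure ℚ))
    (hA : A.LiesOverPrime ℓ) : CharP (ResidueField A) ℓ := by
  rw [CharP.charP_iff_prime_eq_zero hℓ]
  have hmem : ((ℓ : ℕ) : AlgebraicClosure ℚ) ∈ A := ValuationSubring.nonunits_le hA
  have h1 : (⟨((ℓ : ℕ) : AlgebraicClosure ℚ), hmem⟩ : A) ∈ maximalIdeal A := by
    rw [mem_maximalIdeal, mem_nonunits_iff]
    intro hu
    have hA' : ((ℓ : ℕ) : AlgebraicClosure ℚ) ∈ A.nonunits := hA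
    rw [ValuationSubring.mem_nonunits_iff_exists_mem_maximalIdeal] at hA'
    obtain ⟨ha, hm⟩ := hA'
    exact hm hu
  have h2 : ((ℓ : ℕ) : A) = ⟨((ℓ : ℕ) : AlgebraicClosure ℚ), hmem⟩ := Subtype.ext (by simp)
  have h3 : residue A ((ℓ : ℕ) : A) = 0 := by
    rw [h2]
    exact (residue_eq_zero_iff _).mpr h1
  simpa using h3

/-- (K0b) ... and is perfect. -/
theorem ghr_perfectRing_residueField {ℓ : ℕ} [Fact ℓ.Prime]
    (A : ValuationSubring (AlgebraicClosure ℚ)) [CharP (ResidueField A) ℓ] :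
    PerfectRing (ResidueField A) ℓ := by
  have : ExpChar (ResidueField A) ℓ := ExpChar.prime (Fact.out : ℓ.Prime)
  refine PerfectRing.ofSurjective (ResidueField A) ℓ fun x => ?_
  obtain ⟨a, rfl⟩ := residue_surjective x
  obtain ⟨y, hy⟩ := IsAlgClosed.exists_pow_nat_eq (a : AlgebraicClosure ℚ)
    (Fact.out : ℓ.Prime).pos
  have hyA : y ∈ A := ghrr0_mem_of_pow_mem A (Fact.out : ℓ.Prime).ne_zero (by rw [hy]; exact a.2)
  refine ⟨residue A ⟨y, hyA⟩, ?_⟩
  rw [frobenius_def, ← map_pow]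
  congr 1
  exact Subtype.ext hy

end Fermat.Agent.G
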