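import Mathlib
import Fermat.Agent.S24.PlacesCenter
import Fermat.Agent.S24.PlacesPrincipal

/-!
# Program G, package G/Kron, leaf (K2): the weak Riemann inequality

`ghrr_weak_riemann` (= `ghr_weak_riemann` of `G/Kron/Spec.lean`, binders VERBATIM): in a function
field `F / K` with a separating generator `t` over an algebraically closed field of characteristic
`0`, there is `g₀` such that every divisor of degree `≥ g₀` is linearly equivalent to an effective
divisor.

Route (only finite-dimensional subspaces of `F`, no finiteness of `L(D)` needed):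
* `ghrrL E` : the Riemann–Roch space `L(E)`;
* `ghrr_one_point` : for `W ⊆ L(E)` finite-dimensional, `W ∩ L(E - P)` has codimension `≤ 1`
  (the residue field of `P` is `K`); hence `GhrrGood G` for every effective `G`:
  `W ∩ L(E - G)` has codimension `≤ deg G`;
* an integral `K(t)`-basis `u_x` of `F` has poles only over `t = ∞`, of order `≤ c`; the spaces
  `W_d = ⟨u_x t^j : j ≤ d⟩` lie in `L((d + c) B)`, `B = (t)_∞`, `deg B = n = [F : K(t)]`, and have
  dimension `n (d + 1)`;
* Stichtenoth's trick: for `A` with `deg A ≥ n c`: pick `0 ≠ z ∈ W_d ∩ L(m B - A⁺)` and then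
  `0 ≠ f ∈ W_d ∩ L(A - div z)`; `f / z ∈ L(A)`.
-/

set_option autoImplicit false

namespace Fermat.Agent.G

open AlgebraicCurve IntermediateField Fermat.Agent.S24

section L

variable {K F : Type*} [Field K] [Field F] [Algebra K F]

/-- the Riemann–Roch space `L(E) = {f : div f + E ≥ 0}` -/
def ghrrL (E : Divisor K F) : Submodule K F where
  carrier := {f | f = 0 ∨ ∀ P : Place K F, -(E P) ≤ P.ord f}
  zero_mem' := Or.inl rfl
  add_mem' := by
    rintro f g hf hg
    by_cases hfg : f + g = 0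
    · exact Or.inl hfg
    right
    intro P
    have h := PlaceOrd.min_le_ord_add P hfg
    rcases hf with rfl | hf
    · rw [zero_add] at hfg ⊢
      exact (hg.resolve_left hfg) P
    rcases hg with rfl | hg
    · rw [add_zero]
      exact hf P
    exact le_trans (le_min (hf P) (hg P)) h
  smul_mem' := by
    rintro a f hf
    rcases hf with rfl | hf
    · left
      simp
    by_cases ha : a = 0
    · left
      simp [ha]
    by_cases hf0 : f = 0
    · left
      simp [hf0]
    right
    intro P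
    have ha' : algebraMap K F a ≠ 0 := by simpa using ha
    show -(E P) ≤ P.ord (a • f)
    rw [Algebra.smul_def, P.ord_mul ha' hf0, PlaceOrd.ord_algebraMap, zero_add]
    exact hf P

theorem ghrr_mem_L {E : Divisor K F} {f : F} :
    f ∈ ghrrL E ↔ f = 0 ∨ ∀ P : Place K F, -(E P) ≤ P.ord f := Iff.rfl

theorem ghrr_ord_of_mem {E : Divisor K F} {f : F} (hf : f ∈ ghrrL E) (h0 : f ≠ 0)
    (P : Place K F) : -(E P) ≤ P.ord f :=
  (hf.resolve_left h0) P

/-- the residue of `f * c` at `P`, as a `K`-linear map on a space of functions `f` with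
`f * c ∈ 𝒪_P` -/
noncomputable def ghrrRes (P : Place K F) (c : F) (W : Submodule K F)
    (hW : ∀ f ∈ W, f * c ∈ P.toValuationSubring) : W →ₗ[K] P.ResidueField where
  toFun x := IsLocalRing.residue _ (⟨(x : F) * c, hW x x.2⟩ : P.toValuationSubring)
  map_add' x y := by
    rw [← map_add]
    congr 1
    apply Subtype.ext
    simp [add_mul]
  map_smul' a x := by
    simp only [RingHom.id_apply]
    rw [Algebra.smul_def, IsScalarTower.algebraMap_apply K P.toValuationSubring P.ResidueField,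
      IsLocalRing.ResidueField.algebraMap_eq, ← map_mul]
    congr 1
    apply Subtype.ext
    simp [Algebra.smul_def, mul_assoc]

theorem ghrrRes_eq_zero_iff (P : Place K F) (c : F) (W : Submodule K F)
    (hW : ∀ f ∈ W, f * c ∈ P.toValuationSubring) (x : W) :
    ghrrRes P c W hW x = 0 ↔ (x : F) * c = 0 ∨ 0 < P.ord ((x : F) * c) := by
  show IsLocalRing.residue _ (⟨(x : F) * c, hW x x.2⟩ : P.toValuationSubring) = 0 ↔ _
  rw [IsLocalRing.residue_eq_zero_iff]
  by_cases h0 : (x : F) * c = 0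
  · have : (⟨(x : F) * c, hW x x.2⟩ : P.toValuationSubring) = 0 := Subtype.ext h0
    rw [this]
    exact ⟨fun _ => Or.inl h0, fun _ => Ideal.zero_mem _⟩
  · have hne : (⟨(x : F) * c, hW x x.2⟩ : P.toValuationSubring) ≠ 0 := fun h =>
      h0 (congrArg Subtype.val h)
    rw [← PlaceOrd.ord_pos_iff_mem_maximalIdeal P hne]
    simp [h0]


/-- ONE-POINT LEMMA: for a finite-dimensional `W ⊆ L(E)`, the subspace `W ∩ L(E - P)` has
codimension at most one. -/
theorem ghrr_one_point [IsAlgClosed K] {t : F} (ht : IsSepGen K t) (P : Place K F)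
    (E : Divisor K F) (W : Submodule K F) [FiniteDimensional K W] (hW : W ≤ ghrrL E) :
    ∃ W' : Submodule K F, W' ≤ W ∧ W' ≤ ghrrL (E - Finsupp.single P 1) ∧
      (Module.finrank K W : ℤ) ≤ Module.finrank K W' + 1 := by
  classical
  obtain ⟨π, hπ⟩ := IsDiscreteValuationRing.exists_irreducible P.toValuationSubring
  have hπ0 : (π : F) ≠ 0 := PlaceOrd.coe_irreducible_ne_zero P hπ
  obtain ⟨c, hc⟩ : ∃ c : F, c = (π : F) ^ (E P) := ⟨_, rfl⟩
  have hc0 : c ≠ 0 := hc ▸ zpow_ne_zero _ hπ0
  have hordc : P.ord c = E P := by rw [hc, P.ord_zpow, P.ord_coe_irreducible hπ, mul_one]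
  have hmem : ∀ f ∈ W, f * c ∈ P.toValuationSubring := by
    intro f hf
    rcases eq_or_ne f 0 with rfl | hf0
    · rw [zero_mul]
      exact P.toValuationSubring.zero_mem
    · apply PlaceOrd.mem_of_ord_nonneg
      rw [P.ord_mul hf0 hc0, hordc]
      have := ghrr_ord_of_mem (hW hf) hf0 P
      omega
  refine ⟨(LinearMap.ker (ghrrRes P c W hmem)).map W.subtype, ?_, ?_, ?_⟩
  · rintro _ ⟨x, -, rfl⟩
    exact x.2
  · rintro _ ⟨x, hx, rfl⟩
    rw [SetLike.mem_coe, LinearMap.mem_ker, ghrrRes_eq_zero_iff] at hx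
    rcases eq_or_ne (x : F) 0 with h0 | h0
    · exact Or.inl h0
    right
    intro Q
    have hQ := ghrr_ord_of_mem (hW x.2) h0 Q
    show -((E - Finsupp.single P 1 : Divisor K F) Q) ≤ Q.ord (x : F)
    rw [Finsupp.sub_apply]
    by_cases hQP : Q = P
    · rw [hQP, Finsupp.single_eq_same]
      have h1 : 0 < P.ord ((x : F) * c) := hx.resolve_left (mul_ne_zero h0 hc0)
      rw [P.ord_mul h0 hc0, hordc] at h1
      omega
    · rw [Finsupp.single_eq_of_ne hQP]
      omega
  · have h1 := LinearMap.finrank_range_add_finrank_ker (ghrrRes P c W hmem)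
    have h2 : Module.finrank K (LinearMap.range (ghrrRes P c W hmem)) ≤ 1 := by
      have := ht.finite_residueField P
      have h3 := Submodule.finrank_le (LinearMap.range (ghrrRes P c W hmem))
      have hdeg : Module.finrank K P.ResidueField = 1 := ht.deg_eq_one P
      omega
    have h3 : Module.finrank K ((LinearMap.ker (ghrrRes P c W hmem)).map W.subtype) =
        Module.finrank K (LinearMap.ker (ghrrRes P c W hmem)) :=
      Submodule.finrank_map_subtype_eq W (LinearMap.ker (ghrrRes P c W hmem))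
    rw [h3]
    omega

/-- `GhrrGood G`: cutting a finite-dimensional `W ⊆ L(E)` down to `L(E - G)` costs at most
`deg G` dimensions. -/
def GhrrGood (G : Divisor K F) : Prop :=
  ∀ (E : Divisor K F) (W : Submodule K F), FiniteDimensional K W → W ≤ ghrrL E →
    ∃ W' : Submodule K F, W' ≤ W ∧ W' ≤ ghrrL (E - G) ∧
      (Module.finrank K W : ℤ) ≤ Module.finrank K W' + Divisor.degree G

theorem ghrrGood_zero : GhrrGood (0 : Divisor K F) := by
  intro E W _ hW
  refine ⟨W, le_rfl, by rwa [sub_zero], ?_⟩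
  rw [map_zero, add_zero]

theorem ghrrGood_add {G₁ G₂ : Divisor K F} (h₁ : GhrrGood G₁) (h₂ : GhrrGood G₂) :
    GhrrGood (G₁ + G₂) := by
  intro E W hfin hW
  obtain ⟨W₁, hW₁, hL₁, hd₁⟩ := h₁ E W hfin hW
  have hfin₁ : FiniteDimensional K W₁ := Submodule.finiteDimensional_of_le hW₁
  obtain ⟨W₂, hW₂, hL₂, hd₂⟩ := h₂ (E - G₁) W₁ hfin₁ hL₁
  refine ⟨W₂, hW₂.trans hW₁, ?_, ?_⟩
  · rwa [sub_sub] at hL₂
  · rw [map_add]
    omega

theorem ghrrGood_single_one [IsAlgClosed K] {t : F} (ht : IsSepGen K t) (P : Place K F) :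
    GhrrGood (Finsupp.single P (1 : ℤ)) := by
  intro E W hfin hW
  obtain ⟨W', h1, h2, h3⟩ := ghrr_one_point ht P E W hW
  refine ⟨W', h1, h2, ?_⟩
  rw [Divisor.degree_single, ht.deg_eq_one P]
  simpa using h3

theorem ghrrGood_single_nat [IsAlgClosed K] {t : F} (ht : IsSepGen K t) (P : Place K F) (n : ℕ) :
    GhrrGood (Finsupp.single P (n : ℤ)) := by
  induction n with
  | zero =>
    rw [Nat.cast_zero, Finsupp.single_zero]
    exact ghrrGood_zero
  | succ n ih =>
    rw [Nat.cast_succ, Finsupp.single_add]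
    exact ghrrGood_add ih (ghrrGood_single_one ht P)

/-- cutting by an effective divisor `G` costs at most `deg G` dimensions -/
theorem ghrrGood_of_nonneg [IsAlgClosed K] {t : F} (ht : IsSepGen K t) (G : Divisor K F)
    (hG : 0 ≤ G) : GhrrGood G := by
  rw [← Finsupp.sum_single G]
  unfold Finsupp.sum
  refine Finset.sum_induction _ GhrrGood (fun _ _ => ghrrGood_add) ghrrGood_zero ?_
  intro P _
  obtain ⟨n, hn⟩ := Int.eq_ofNat_of_zero_le (hG P)
  rw [hn]
  exact ghrrGood_single_nat ht P n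

/-- the degree of an effective divisor is nonnegative -/
theorem ghrr_degree_nonneg (G : Divisor K F) (hG : 0 ≤ G) : 0 ≤ Divisor.degree G := by
  rw [pp_degree_eq_sum G G.support (Finset.Subset.refl _)]
  exact Finset.sum_nonneg fun P _ => mul_nonneg (hG P) (Int.natCast_nonneg _)

end L

section Basis

open scoped IntermediateField.algebraAdjoinAdjoin

variable {K F : Type*} [Field K] [Field F] [Algebra K F] [IsAlgClosed K] [CharZero K] {t : F}

/-- the pole order of `t` at `P` -/
noncomputable def ghrrPole (t : F) (P : Place K F) : ℤ := max 0 (-(P.ord t))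

omit [IsAlgClosed K] [CharZero K] in
theorem ghrrPole_nonneg (P : Place K F) : 0 ≤ ghrrPole t P := le_max_left _ _

omit [IsAlgClosed K] [CharZero K] in
theorem ghrr_neg_pole_le_ord (P : Place K F) : -(ghrrPole t P) ≤ P.ord t := by
  have := le_max_right 0 (-(P.ord t))
  unfold ghrrPole
  omega

omit [IsAlgClosed K] [CharZero K] in
theorem ghrr_ne_zero (ht : IsSepGen K t) : t ≠ 0 := by
  rintro rfl
  exact ht.transcendental isAlgebraic_zero

/-- the polar divisor `B = (t)_∞` of `t` -/
noncomputable def ghrrB (ht : IsSepGen K t) : Divisor K F :=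
  Finsupp.ofSupportFinite (fun P => ghrrPole t P) (by
    refine (ht.finite_ord_ne_zero (ghrr_ne_zero ht)).subset fun P hP => ?_
    rw [Function.mem_support] at hP
    rw [Set.mem_ofPred_eq]
    intro h0
    apply hP
    show max 0 (-(P.ord t)) = 0
    rw [h0]
    simp)

omit [IsAlgClosed K] in
theorem ghrrB_apply (ht : IsSepGen K t) (P : Place K F) : ghrrB ht P = ghrrPole t P := rfl

/-- `deg (t)_∞ = [F : K(t)]` -/
theorem ghrr_degree_B (ht : IsSepGen K t) :
    Divisor.degree (ghrrB ht) = (Module.finrank K⟮t⟯ F : ℤ) := by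
  classical
  have hs : (ghrrB ht).support ⊆ ht.inv.finite_ord_pos.toFinset := by
    intro P hP
    rw [Finsupp.mem_support_iff, ghrrB_apply] at hP
    rw [Set.Finite.mem_toFinset, Set.mem_ofPred_eq, Place.ord_inv]
    by_contra h
    apply hP
    show max 0 (-(P.ord t)) = 0
    apply max_eq_left
    omega
  rw [pp_degree_eq_sum _ _ hs, ← ht.finrank_inv, ← ht.inv.sum_ord]
  refine Finset.sum_congr rfl fun P hP => ?_
  rw [Set.Finite.mem_toFinset, Set.mem_ofPred_eq, Place.ord_inv] at hP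
  rw [ht.deg_eq_one P, Nat.cast_one, mul_one, Place.ord_inv, ghrrB_apply]
  show max 0 (-(P.ord t)) = _
  exact max_eq_right (by omega)

omit [IsAlgClosed K] [CharZero K] in
/-- an element integral over `K[t]` has no pole away from the poles of `t` -/
theorem ghrr_ord_nonneg_of_isIntegral {u : F} (hu : IsIntegral (Algebra.adjoin K {t}) u)
    (P : Place K F) (hP : 0 ≤ P.ord t) : 0 ≤ P.ord u := by
  have hmem : t ∈ P.toValuationSubring := PlaceOrd.mem_of_ord_nonneg P hP
  apply PlaceOrd.ord_nonneg_of_mem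
  refine mem_of_isIntegral_of_forall_mem P (A := Algebra.adjoin K {t}) ?_ hu
  intro a
  exact adjoin_le_placeSubalgebra P hmem a.2

omit [IsAlgClosed K] in
/-- an element integral over `K[t]` has poles bounded by a multiple of `(t)_∞` -/
theorem ghrr_exists_bound (ht : IsSepGen K t) {u : F}
    (hu : IsIntegral (Algebra.adjoin K {t}) u) :
    ∃ c : ℕ, ∀ P : Place K F, -((c : ℤ) * ghrrPole t P) ≤ P.ord u := by
  classical
  rcases eq_or_ne u 0 with rfl | hu0
  · refine ⟨0, fun P => ?_⟩
    simp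
  have hfin := ht.finite_ord_ne_zero hu0
  refine ⟨∑ P ∈ hfin.toFinset, (P.ord u).natAbs, fun P => ?_⟩
  by_cases hP : 0 ≤ P.ord t
  · have h1 := ghrr_ord_nonneg_of_isIntegral hu P hP
    have h2 : ghrrPole t P = 0 := by
      unfold ghrrPole
      exact max_eq_left (by omega)
    rw [h2, mul_zero, neg_zero]
    exact h1
  · have h2 : 1 ≤ ghrrPole t P := by
      have := le_max_right 0 (-(P.ord t))
      unfold ghrrPole
      omega
    by_cases hPu : P.ord u = 0
    · rw [hPu]
      have : 0 ≤ ((∑ P ∈ hfin.toFinset, (P.ord u).natAbs : ℕ) : ℤ) * ghrrPole t P :=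
        mul_nonneg (Int.natCast_nonneg _) (ghrrPole_nonneg P)
      omega
    · have hmem : P ∈ hfin.toFinset := by
        rw [Set.Finite.mem_toFinset, Set.mem_ofPred_eq]
        exact hPu
      have h3 : (P.ord u).natAbs ≤ ∑ P ∈ hfin.toFinset, (P.ord u).natAbs :=
        Finset.single_le_sum (f := fun P : Place K F => (P.ord u).natAbs)
          (fun _ _ => Nat.zero_le _) hmem
      have h4 : ((P.ord u).natAbs : ℤ) ≤ ((∑ P ∈ hfin.toFinset, (P.ord u).natAbs : ℕ) : ℤ) := by
        exact_mod_cast h3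
      have h5 : ((∑ P ∈ hfin.toFinset, (P.ord u).natAbs : ℕ) : ℤ) * 1 ≤
          ((∑ P ∈ hfin.toFinset, (P.ord u).natAbs : ℕ) : ℤ) * ghrrPole t P :=
        mul_le_mul_of_nonneg_left h2 (Int.natCast_nonneg _)
      have h6 : -((P.ord u).natAbs : ℤ) ≤ P.ord u := by
        omega
      omega

omit [IsAlgClosed K] in
/-- monomials `t^j u` with `u` of bounded poles lie in `L((d + c') B)` -/
theorem ghrr_monomial_mem (ht : IsSepGen K t) {u : F} {c : ℕ}
    (hu : ∀ P : Place K F, -((c : ℤ) * ghrrPole t P) ≤ P.ord u) {j d : ℕ} (hj : j ≤ d) {c' : ℕ}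
    (hc : c ≤ c') : t ^ j * u ∈ ghrrL ((((d + c' : ℕ) : ℤ)) • ghrrB ht) := by
  rcases eq_or_ne u 0 with rfl | hu0
  · rw [mul_zero]
    exact Submodule.zero_mem _
  right
  intro P
  have ht0 := ghrr_ne_zero ht
  rw [P.ord_mul (pow_ne_zero _ ht0) hu0, ← zpow_natCast, P.ord_zpow, Finsupp.smul_apply,
    ghrrB_apply, smul_eq_mul]
  have h1 := hu P
  have h2 := ghrr_neg_pole_le_ord (t := t) P
  have h3 := ghrrPole_nonneg (t := t) P
  have hj' : (j : ℤ) ≤ (d : ℤ) := by exact_mod_cast hj
  have hc' : (c : ℤ) ≤ (c' : ℤ) := by exact_mod_cast hc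
  have hj0 : (0 : ℤ) ≤ (j : ℤ) := Int.natCast_nonneg _
  push_cast
  nlinarith

/-- the map `(p_x)_x ↦ ∑ p_x(t) u_x` on tuples of polynomials of degree `≤ d` -/
noncomputable def ghrrPhi (t : F) {ι : Type*} [Fintype ι] (u : ι → F) (d : ℕ) :
    (ι → Polynomial.degreeLT K (d + 1)) →ₗ[K] F where
  toFun p := ∑ x, Polynomial.aeval t (p x : Polynomial K) * u x
  map_add' p q := by
    simp [add_mul, Finset.sum_add_distrib]
  map_smul' a p := by
    simp [Finset.smul_sum]

omit [IsAlgClosed K] [CharZero K] in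
theorem ghrrPhi_apply (t : F) {ι : Type*} [Fintype ι] (u : ι → F) (d : ℕ)
    (p : ι → Polynomial.degreeLT K (d + 1)) :
    ghrrPhi t u d p = ∑ x, Polynomial.aeval t (p x : Polynomial K) * u x := rfl

omit [IsAlgClosed K] in
/-- the image of `ghrrPhi` lies in `L((d + c) B)` -/
theorem ghrrPhi_mem (ht : IsSepGen K t) {ι : Type*} [Fintype ι] (u : ι → F) (cx : ι → ℕ)
    (hu : ∀ x (P : Place K F), -((cx x : ℤ) * ghrrPole t P) ≤ P.ord (u x)) (c : ℕ)
    (hc : ∀ x, cx x ≤ c) (d : ℕ) (p : ι → Polynomial.degreeLT K (d + 1)) :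
    ghrrPhi t u d p ∈ ghrrL ((((d + c : ℕ) : ℤ)) • ghrrB ht) := by
  rw [ghrrPhi_apply]
  refine Submodule.sum_mem _ fun x _ => ?_
  have hdeg : (p x : Polynomial K).natDegree < d + 1 := by
    have h1 := Polynomial.mem_degreeLT.1 (p x).2
    by_cases h0 : (p x : Polynomial K) = 0
    · rw [h0, Polynomial.natDegree_zero]
      omega
    · exact (Polynomial.natDegree_lt_iff_degree_lt h0).2 h1
  rw [Polynomial.aeval_eq_sum_range' hdeg, Finset.sum_mul]
  refine Submodule.sum_mem _ fun j hj => ?_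
  rw [smul_mul_assoc]
  refine Submodule.smul_mem _ _ ?_
  rw [Finset.mem_range] at hj
  exact ghrr_monomial_mem ht (hu x) (by omega) (hc x)

omit [IsAlgClosed K] [CharZero K] in
/-- `ghrrPhi` is injective when the `u_x` are linearly independent over `K(t)` -/
theorem ghrrPhi_injective (ht : IsSepGen K t) {ι : Type*} [Fintype ι] (u : ι → F)
    (hu : LinearIndependent K⟮t⟯ u) (d : ℕ) : Function.Injective (ghrrPhi (K := K) t u d) := by
  rw [← LinearMap.ker_eq_bot, LinearMap.ker_eq_bot']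
  intro p hp
  rw [ghrrPhi_apply] at hp
  have h1 : ∑ x, (Polynomial.aeval (AdjoinSimple.gen K t) (p x : Polynomial K) : K⟮t⟯) • u x = 0 := by
    rw [← hp]
    refine Finset.sum_congr rfl fun x _ => ?_
    rw [Algebra.smul_def]
    congr 1
    exact AdjoinSimple.coe_aeval_gen_apply K t (p x : Polynomial K)
  have h2 := Fintype.linearIndependent_iff.1 hu _ h1
  funext x
  apply Subtype.ext
  have h3 : Polynomial.aeval t (p x : Polynomial K) = 0 := by
    rw [← AdjoinSimple.coe_aeval_gen_apply K t (p x : Polynomial K), h2 x]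
    rfl
  exact transcendental_iff.1 ht.transcendental _ h3

omit [IsAlgClosed K] [CharZero K] in
theorem ghrr_finrank_range (ht : IsSepGen K t) {ι : Type*} [Fintype ι] (u : ι → F)
    (hu : LinearIndependent K⟮t⟯ u) (d : ℕ) :
    Module.finrank K (LinearMap.range (ghrrPhi (K := K) t u d)) = Fintype.card ι * (d + 1) := by
  rw [LinearMap.finrank_range_of_inj (ghrrPhi_injective ht u hu d), Module.finrank_pi_fintype]
  have h1 : Module.finrank K (Polynomial.degreeLT K (d + 1)) = d + 1 := by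
    rw [(Polynomial.degreeLTEquiv K (d + 1)).finrank_eq, Module.finrank_fin_fun]
  simp [h1]

/-- (K2) WEAK RIEMANN: in a function field with a separating generator over an algebraically
closed field of characteristic `0`, every divisor of large degree is linearly equivalent to an
effective divisor. -/
theorem ghrr_weak_riemann {K F : Type*} [Field K] [Field F] [Algebra K F] [IsAlgClosed K]
    [CharZero K] {t : F} (ht : IsSepGen K t) :
    ∃ g₀ : ℕ, ∀ D : Divisor K F, (g₀ : ℤ) ≤ Divisor.degree D →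
      ∃ E : Divisor K F, 0 ≤ E ∧ D - E ∈ Divisor.principal (K := K) (F := F) := by
  classical
  have hfinF := ht.finite
  obtain ⟨s, b, hb⟩ := FiniteDimensional.exists_is_basis_integral (Algebra.adjoin K {t}) K⟮t⟯ F
  choose cx hcx using fun x : s => ghrr_exists_bound ht (hb x)
  obtain ⟨c, hc⟩ : ∃ c : ℕ, c = ∑ x, cx x := ⟨_, rfl⟩
  have hcle : ∀ x, cx x ≤ c := fun x => by
    rw [hc]
    exact Finset.single_le_sum (f := cx) (fun _ _ => Nat.zero_le _) (Finset.mem_univ x)
  obtain ⟨n, hn⟩ : ∃ n : ℕ, n = Fintype.card s := ⟨_, rfl⟩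
  have hn_eq : Module.finrank K⟮t⟯ F = n := by rw [hn]; exact Module.finrank_eq_card_basis b
  have hn1 : 1 ≤ n := by
    rw [← hn_eq]
    exact Module.finrank_pos
  have hdegB : Divisor.degree (ghrrB ht) = (n : ℤ) := by rw [ghrr_degree_B ht, hn_eq]
  refine ⟨n * c, fun A hA => ?_⟩
  -- the positive part of `A`
  obtain ⟨Apos, hApos⟩ : ∃ Apos : Divisor K F, Apos = A.mapRange (fun k => max k 0) (by simp) :=
    ⟨_, rfl⟩
  have hApos_apply : ∀ P, Apos P = max (A P) 0 := fun P => by
    rw [hApos, Finsupp.mapRange_apply]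
  have hApos0 : 0 ≤ Apos := fun P => by
    rw [hApos_apply]
    exact le_max_right _ _
  have hdegpos := ghrr_degree_nonneg Apos hApos0
  obtain ⟨d, hd⟩ : ∃ d : ℕ, (d : ℤ) = Divisor.degree Apos :=
    ⟨(Divisor.degree Apos).toNat, Int.toNat_of_nonneg hdegpos⟩
  -- the space `W_d`
  obtain ⟨W, hW⟩ : ∃ W : Submodule K F,
      W = LinearMap.range (ghrrPhi (K := K) t (fun x : s => b x) d) := ⟨_, rfl⟩
  have hWfin : FiniteDimensional K W := by
    rw [hW]
    infer_instance
  have hWdim : Module.finrank K W = n * (d + 1) := by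
    rw [hW, hn]
    exact ghrr_finrank_range ht _ b.linearIndependent d
  have hWL : W ≤ ghrrL ((((d + c : ℕ) : ℤ)) • ghrrB ht) := by
    rw [hW]
    rintro _ ⟨p, rfl⟩
    exact ghrrPhi_mem ht _ cx hcx c hcle d p
  -- first cut: a nonzero `z ∈ W_d ∩ L(m B - A⁺)`
  obtain ⟨W₁, hW₁, hL₁, hd₁⟩ := ghrrGood_of_nonneg ht Apos hApos0 _ W hWfin hWL
  have hpos₁ : 0 < Module.finrank K W₁ := by
    rw [hWdim, ← hd] at hd₁
    push_cast at hd₁
    have : (1 : ℤ) ≤ (n : ℤ) := by exact_mod_cast hn1
    have : (0 : ℤ) < (Module.finrank K W₁ : ℤ) := by nlinarith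
    exact_mod_cast this
  have hfin₁ : FiniteDimensional K W₁ := Submodule.finiteDimensional_of_le hW₁
  obtain ⟨⟨z, hzW₁⟩, hz0'⟩ := Module.finrank_pos_iff_exists_ne_zero.1 hpos₁
  have hz0 : z ≠ 0 := fun h => hz0' (Subtype.ext h)
  have hzL := ghrr_ord_of_mem (hL₁ hzW₁) hz0
  -- the divisor of `z`
  have hPD := ht.hasPrincipalDivisors
  obtain ⟨Dz, hDz, hDzdeg⟩ := hPD.exists_divisor z hz0
  -- second cut
  obtain ⟨G, hG⟩ : ∃ G : Divisor K F, G = (((d + c : ℕ) : ℤ)) • ghrrB ht - A + Dz := ⟨_, rfl⟩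
  have hG0 : 0 ≤ G := by
    intro P
    have h1 := hzL P
    rw [Finsupp.sub_apply] at h1
    have h2 : A P ≤ Apos P := by
      rw [hApos_apply]
      exact le_max_left _ _
    rw [hG, Finsupp.add_apply, Finsupp.sub_apply, hDz P]
    show (0 : ℤ) ≤ _
    omega
  have hGdeg : Divisor.degree G = ((d + c : ℕ) : ℤ) * n - Divisor.degree A := by
    rw [hG, map_add, map_sub, map_zsmul, hDzdeg, hdegB, smul_eq_mul]
    ring
  obtain ⟨W₂, hW₂, hL₂, hd₂⟩ := ghrrGood_of_nonneg ht G hG0 _ W hWfin hWL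
  have hpos₂ : 0 < Module.finrank K W₂ := by
    rw [hWdim, hGdeg] at hd₂
    push_cast at hd₂ hA
    have h1 : (1 : ℤ) ≤ (n : ℤ) := by exact_mod_cast hn1
    have : (0 : ℤ) < (Module.finrank K W₂ : ℤ) := by nlinarith
    exact_mod_cast this
  have hfin₂ : FiniteDimensional K W₂ := Submodule.finiteDimensional_of_le hW₂
  obtain ⟨⟨f, hfW₂⟩, hf0'⟩ := Module.finrank_pos_iff_exists_ne_zero.1 hpos₂
  have hf0 : f ≠ 0 := fun h => hf0' (Subtype.ext h)
  have hfL := ghrr_ord_of_mem (hL₂ hfW₂) hf0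
  -- `f / z ∈ L(A)`
  have hfz0 : f * z⁻¹ ≠ 0 := mul_ne_zero hf0 (inv_ne_zero hz0)
  obtain ⟨Dfz, hDfz, -⟩ := hPD.exists_divisor (f * z⁻¹) hfz0
  refine ⟨A + Dfz, ?_, ?_⟩
  · intro P
    have h1 := hfL P
    rw [hG, Finsupp.sub_apply, Finsupp.add_apply, Finsupp.sub_apply, hDz P] at h1
    rw [Finsupp.add_apply, hDfz P, P.ord_mul hf0 (inv_ne_zero hz0), P.ord_inv]
    show (0 : ℤ) ≤ _
    omega
  · have : A - (A + Dfz) = -Dfz := by abel
    rw [this]
    exact neg_mem ⟨f * z⁻¹, hfz0, hDfz⟩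

end Basis

end Fermat.Agent.G
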