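import Fermat.Agent.G.Kron.Bounded
import Fermat.Agent.G.Kron.Riemann
import Fermat.Agent.G.Kron.Residue
import Fermat.Agent.G.Kron.HeckeBound
import Fermat.Agent.G.Kron.PrincipalGal
import Fermat.Agent.G.Kron.PrincipalHecke
import Fermat.Agent.S18.A.Const

/-!
# Program G, package G/Kron : ASSEMBLY of (I3), (I4) of `G/S37/Wiring.lean`

From the leaves of `G/Kron/Spec.lean` (K1 boundedness lemma, K2 weak Riemann, K4 the three maps kill
principal divisors, K5a bounds on single places), for the Prelude's ARBITRARY place reduction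
`r = placeReductionModL h`.
-/

set_option autoImplicit false
set_option linter.unusedSectionVars false
set_option linter.unusedVariables false
set_option synthInstance.maxHeartbeats 400000

noncomputable section

namespace Fermat.Agent.G

open ModularCurve AlgebraicCurve IsLocalRing Fermat.Agent.S18 Fermat.Agent.S24

local notation "Qb" => AlgebraicClosure ℚ

/-! ### the `ℓ¹`-norm -/

section Norm1

variable {X : Type*}

theorem ghrm_norm1_eq_sum (D : X →₀ ℤ) (s : Finset X) (hs : D.support ⊆ s) :
    ghrNorm1 D = ∑ x ∈ s, (D x).natAbs :=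
  Finsupp.sum_of_support_subset D hs _ (fun _ _ => Int.natAbs_zero)

theorem ghrm_norm1_single (x : X) (n : ℤ) : ghrNorm1 (Finsupp.single x n) = n.natAbs :=
  Finsupp.sum_single_index Int.natAbs_zero

theorem ghrm_norm1_add_le (D E : X →₀ ℤ) : ghrNorm1 (D + E) ≤ ghrNorm1 D + ghrNorm1 E := by
  classical
  rw [ghrm_norm1_eq_sum (D + E) (D.support ∪ E.support) Finsupp.support_add,
    ghrm_norm1_eq_sum D (D.support ∪ E.support) Finset.subset_union_left,
    ghrm_norm1_eq_sum E (D.support ∪ E.support) Finset.subset_union_right,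
    ← Finset.sum_add_distrib]
  exact Finset.sum_le_sum fun x _ => by rw [Finsupp.add_apply]; exact Int.natAbs_add_le _ _

theorem ghrm_norm1_neg (D : X →₀ ℤ) : ghrNorm1 (-D) = ghrNorm1 D := by
  rw [ghrm_norm1_eq_sum (-D) D.support (by rw [Finsupp.support_neg]),
    ghrm_norm1_eq_sum D D.support subset_rfl]
  exact Finset.sum_congr rfl fun x _ => by rw [Finsupp.neg_apply, Int.natAbs_neg]

theorem ghrm_norm1_sub_le (D E : X →₀ ℤ) : ghrNorm1 (D - E) ≤ ghrNorm1 D + ghrNorm1 E := by
  rw [sub_eq_add_neg, ← ghrm_norm1_neg E]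
  exact ghrm_norm1_add_le D (-E)

theorem ghrm_norm1_nsmul (n : ℕ) (D : X →₀ ℤ) : ghrNorm1 (n • D) = n * ghrNorm1 D := by
  rw [ghrm_norm1_eq_sum (n • D) D.support Finsupp.support_smul,
    ghrm_norm1_eq_sum D D.support subset_rfl, Finset.mul_sum]
  refine Finset.sum_congr rfl fun x _ => ?_
  rw [Finsupp.smul_apply, nsmul_eq_mul, Int.natAbs_mul, Int.natAbs_natCast]

end Norm1

/-! ### the vanishing principle on `X₀(N)_ℚ̄` -/

section Vanish

variable (N : ℕ) [NeZero N]

theorem ghrm_degree_eq_zero_of_principal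
    (D : Divisor Qb (modularFunctionFieldBar N))
    (hD : D ∈ Divisor.principal (K := Qb) (F := modularFunctionFieldBar N)) :
    Divisor.degree D = 0 := by
  obtain ⟨f, hf, hDf⟩ := hD
  have hP : HasPrincipalDivisors Qb (modularFunctionFieldBar N) :=
    (isSepGen_jBar N).hasPrincipalDivisors
  obtain ⟨D', hD', hdeg⟩ := hP.exists_divisor f hf
  have : D = D' := Finsupp.ext fun v => by rw [hDf, hD']
  rw [this, hdeg]

/-- THE VANISHING PRINCIPLE: an additive map from divisors of `X₀(N)_ℚ̄` to finitely supported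
integer functions which kills principal divisors and is bounded on single places vanishes on
divisors of degree `0`. -/
theorem ghrm_vanish {X : Type*} (Ψ : Divisor Qb (modularFunctionFieldBar N) →+ (X →₀ ℤ))
    (hprin : ∀ D ∈ Divisor.principal (K := Qb) (F := modularFunctionFieldBar N), Ψ D = 0)
    (C : ℕ) (hC : ∀ P : Place Qb (modularFunctionFieldBar N),
      ghrNorm1 (Ψ (Finsupp.single P 1)) ≤ C) :
    ∀ D ∈ Divisor.degZero (K := Qb) (F := modularFunctionFieldBar N), Ψ D = 0 := by
  obtain ⟨g₀, hg₀⟩ := ghrr_weak_riemann (isSepGen_jBar N)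
  exact ghr_eq_zero_of_bounded (fun P => (isSepGen_jBar N).deg_eq_one P) g₀ hg₀ Ψ
    (ghrm_degree_eq_zero_of_principal N) hprin C hC

end Vanish


/-! ### the three maps vanish on divisors of degree `0` -/

section Maps

variable {N : ℕ} [NeZero N] {ℓ : ℕ} [Fact ℓ.Prime]
variable {A : ValuationSubring Qb}
variable (r : Place Qb (modularFunctionFieldBar N) →
  Place (ResidueField A) (modularFunctionFieldFullC (ResidueField A) N))

/-- the Galois action on divisors as an additive map -/
def ghrmGal (N : ℕ) [NeZero N] (σ : Qb ≃ₐ[ℚ] Qb) :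
    Divisor Qb (modularFunctionFieldBar N) →+ Divisor Qb (modularFunctionFieldBar N) :=
  DistribSMul.toAddMonoidHom _ (arithmeticGalois (modularFunctionFieldFull N) σ)

/-- the action of a semilinear automorphism of the special fibre on divisors as an additive map -/
def ghrmAct (N : ℕ) [NeZero N] (A : ValuationSubring Qb)
    (g : SemilinearAut (ResidueField A) (modularFunctionFieldFullC (ResidueField A) N)) :
    Divisor (ResidueField A) (modularFunctionFieldFullC (ResidueField A) N) →+
      Divisor (ResidueField A) (modularFunctionFieldFullC (ResidueField A) N) :=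
  DistribSMul.toAddMonoidHom _ g

/-- (I3) on divisors: `r_*` kills inertia on divisors of degree `0`. -/
theorem ghrm_red_inertia (hr : IsPlaceReductionModL A N r)
    (hgen : PrincipalGeneratedByIntegral A (residue A) N)
    (σ : Qb ≃ₐ[ℚ] Qb) (hσ : σ ∈ A.inertiaSubgroupIn ℚ)
    (D : Divisor Qb (modularFunctionFieldBar N))
    (hD : D ∈ Divisor.degZero (K := Qb) (F := modularFunctionFieldBar N)) :
    Finsupp.mapDomain r (arithmeticGalois (modularFunctionFieldFull N) σ • D) =
      Finsupp.mapDomain r D := by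
  have key := ghrm_vanish N
    ((reductionDivAlong r).comp (ghrmGal N σ) - reductionDivAlong r)
    (fun D hD => by
      show Finsupp.mapDomain r (arithmeticGalois (modularFunctionFieldFull N) σ • D) -
        Finsupp.mapDomain r D = 0
      rw [ghr_red_inertia_principal r hr hgen σ hσ D hD, sub_self])
    2 (fun P => by
      show ghrNorm1 (Finsupp.mapDomain r (arithmeticGalois (modularFunctionFieldFull N) σ •
        Finsupp.single P (1 : ℤ)) - Finsupp.mapDomain r (Finsupp.single P (1 : ℤ))) ≤ 2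
      rw [SemilinearAut.smul_single, Finsupp.mapDomain_single, Finsupp.mapDomain_single]
      refine (ghrm_norm1_sub_le _ _).trans ?_
      rw [ghrm_norm1_single, ghrm_norm1_single]
      simp) D hD
  exact sub_eq_zero.mp key

/-- Frobenius on divisors: `r_* φ = Frob r_*` on divisors of degree `0`. -/
theorem ghrm_red_frob [CharP (ResidueField A) ℓ] [PerfectRing (ResidueField A) ℓ]
    (hr : IsPlaceReductionModL A N r)
    (hgen : PrincipalGeneratedByIntegral A (residue A) N)
    (σ : Qb ≃ₐ[ℚ] Qb) (hσ : A.IsFrobeniusAt σ ℓ)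
    (D : Divisor Qb (modularFunctionFieldBar N))
    (hD : D ∈ Divisor.degZero (K := Qb) (F := modularFunctionFieldBar N)) :
    Finsupp.mapDomain r (arithmeticGalois (modularFunctionFieldFull N) σ • D) =
      ghrFrob (k := ResidueField A) N ℓ • Finsupp.mapDomain r D := by
  have key := ghrm_vanish N
    ((reductionDivAlong r).comp (ghrmGal N σ) -
      (ghrmAct N A (ghrFrob (k := ResidueField A) N ℓ)).comp (reductionDivAlong r))
    (fun D hD => by
      show Finsupp.mapDomain r (arithmeticGalois (modularFunctionFieldFull N) σ • D) -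
        ghrFrob (k := ResidueField A) N ℓ • Finsupp.mapDomain r D = 0
      rw [ghr_red_frob_principal r hr hgen σ hσ D hD, sub_self])
    2 (fun P => by
      show ghrNorm1 (Finsupp.mapDomain r (arithmeticGalois (modularFunctionFieldFull N) σ •
        Finsupp.single P (1 : ℤ)) -
          ghrFrob (k := ResidueField A) N ℓ • Finsupp.mapDomain r (Finsupp.single P (1 : ℤ))) ≤ 2
      rw [SemilinearAut.smul_single, Finsupp.mapDomain_single, Finsupp.mapDomain_single,
        SemilinearAut.smul_single]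
      refine (ghrm_norm1_sub_le _ _).trans ?_
      rw [ghrm_norm1_single, ghrm_norm1_single]
      simp) D hD
  exact sub_eq_zero.mp key

/-- Hecke on divisors: `r_* T_ℓ = (Frob + ℓ Frob⁻¹) r_*` on divisors of degree `0`. -/
theorem ghrm_red_hecke [CharP (ResidueField A) ℓ] [PerfectRing (ResidueField A) ℓ]
    (hℓN : ¬ ℓ ∣ N) (hA : A.LiesOverPrime ℓ)
    (hr : IsPlaceReductionModL A N r)
    (hgen : PrincipalGeneratedByIntegral A (residue A) N) :
    haveI : NeZero ℓ := ⟨(Fact.out : ℓ.Prime).ne_zero⟩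
    ∀ (hα : HeckeAlphaBarIntegral Qb N ℓ) (hβ : HeckeBetaBarIntegral Qb N ℓ)
      [HasPrincipalDivisors Qb (modularFunctionFieldBar (N * ℓ))]
      (D : Divisor Qb (modularFunctionFieldBar N))
      (_ : D ∈ Divisor.degZero (K := Qb) (F := modularFunctionFieldBar N)),
      Finsupp.mapDomain r (heckeDivBar hα hβ D) =
        ghrFrob (k := ResidueField A) N ℓ • Finsupp.mapDomain r D +
          ℓ • ((ghrFrob (k := ResidueField A) N ℓ)⁻¹ • Finsupp.mapDomain r D) := by
  have : NeZero ℓ := ⟨(Fact.out : ℓ.Prime).ne_zero⟩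
  intro hα hβ _ D hD
  have key := ghrm_vanish N
    ((reductionDivAlong r).comp (heckeDivBar hα hβ) -
      ((ghrmAct N A (ghrFrob (k := ResidueField A) N ℓ)).comp (reductionDivAlong r) +
        ℓ • (ghrmAct N A (ghrFrob (k := ResidueField A) N ℓ)⁻¹).comp (reductionDivAlong r)))
    (fun D hD => by
      show Finsupp.mapDomain r (heckeDivBar hα hβ D) -
        (ghrFrob (k := ResidueField A) N ℓ • Finsupp.mapDomain r D +
          ℓ • ((ghrFrob (k := ResidueField A) N ℓ)⁻¹ • Finsupp.mapDomain r D)) = 0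
      rw [ghr_red_hecke_principal r hℓN hA hr hgen hα hβ D hD, sub_self])
    (finrankAlong Qb (heckeBetaBar Qb N ℓ) + (1 + ℓ)) (fun P => by
      show ghrNorm1 (Finsupp.mapDomain r (heckeDivBar hα hβ (Finsupp.single P (1 : ℤ))) -
        (ghrFrob (k := ResidueField A) N ℓ • Finsupp.mapDomain r (Finsupp.single P (1 : ℤ)) +
          ℓ • ((ghrFrob (k := ResidueField A) N ℓ)⁻¹ •
            Finsupp.mapDomain r (Finsupp.single P (1 : ℤ))))) ≤ _
      rw [Finsupp.mapDomain_single, SemilinearAut.smul_single, SemilinearAut.smul_single]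
      refine (ghrm_norm1_sub_le _ _).trans (add_le_add ?_ ?_)
      · exact (ghr_norm1_mapDomain_le r _).trans
          (ghr_norm1_heckeDiv_single_le N ℓ (Fact.out : ℓ.Prime) hα hβ P)
      · refine (ghrm_norm1_add_le _ _).trans (add_le_add ?_ ?_)
        · rw [ghrm_norm1_single]; simp
        · rw [ghrm_norm1_nsmul, ghrm_norm1_single]; simp) D hD
  exact sub_eq_zero.mp key

end Maps

/-! ### (K5) the top statements: (I3) and (I4) of `G/S37/Wiring.lean` -/

section Top

/-- (I3) the reduction map kills inertia. -/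
theorem ghr_I3 (N : ℕ) [NeZero N] (ℓ : ℕ) (hℓ : ℓ.Prime) (hℓN : ¬ ℓ ∣ N)
    (A : ValuationSubring (AlgebraicClosure ℚ)) (hA : A.LiesOverPrime ℓ)
    (h : ReductionInputsModL A N)
    (σ : AlgebraicClosure ℚ ≃ₐ[ℚ] AlgebraicClosure ℚ) (hσ : σ ∈ A.inertiaSubgroupIn ℚ)
    (x : JZero N) : reductionModL A N (σ • x) = reductionModL A N x := by
  obtain ⟨D, rfl⟩ := Pic0.mk_surjective x
  rw [galois_smul_pic0_def, SemilinearAut.pic0_smul_mk, reductionModL_mk h, reductionModL_mk h]
  congr 1
  apply Subtype.ext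
  rw [coe_reductionDegZeroAlong, coe_reductionDegZeroAlong, SemilinearAut.coe_degZeroSMulHom]
  exact ghrm_red_inertia (placeReductionModL h) (isPlaceReductionModL_placeReductionModL h)
    h.choose_spec.2 σ hσ D D.2

/-- (I4) the Eichler-Shimura congruence relation on the reduction. -/
theorem ghr_I4 (N : ℕ) [NeZero N] (ℓ : ℕ) (hℓ : ℓ.Prime) (hℓN : ¬ ℓ ∣ N)
    (A : ValuationSubring (AlgebraicClosure ℚ)) (hA : A.LiesOverPrime ℓ)
    (h : ReductionInputsModL A N)
    (hH : haveI : NeZero ℓ := ⟨hℓ.ne_zero⟩; HeckeInputsAlong (AlgebraicClosure ℚ) N ℓ)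
    (σ : AlgebraicClosure ℚ ≃ₐ[ℚ] AlgebraicClosure ℚ) (hσ : A.IsFrobeniusAt σ ℓ)
    (x : JZero N) :
    reductionModL A N (σ • σ • x - heckeOperatorBar N ⟨ℓ, hℓ⟩ (σ • x) + ℓ • x) = 0 := by
  have : NeZero ℓ := ⟨hℓ.ne_zero⟩
  have : Fact ℓ.Prime := ⟨hℓ⟩
  have : CharP (ResidueField A) ℓ := s18ac_charP A hA
  have : PerfectRing (ResidueField A) ℓ := ghr_perfectRing_residueField A
  obtain ⟨hα, hβ, hP, hfin, hFI, hN⟩ := hH
  have := hP
  set r := placeReductionModL h with hrdef
  have hr : IsPlaceReductionModL A N r := isPlaceReductionModL_placeReductionModL h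
  have hgen : PrincipalGeneratedByIntegral A (residue A) N := h.choose_spec.2
  set g := arithmeticGalois (modularFunctionFieldFull N) σ with hgdef
  obtain ⟨D, rfl⟩ := Pic0.mk_surjective x
  -- the Hecke operator on the class of `σ • D`
  have hT : heckeOperatorBar N ⟨ℓ, hℓ⟩ (Pic0.mk (SemilinearAut.degZeroSMulHom g D)) =
      Pic0.mk (Pic0.degZeroCorrespondence (heckeBetaBar Qb N ℓ) (heckeAlphaBar Qb N ℓ) hβ hα hFI
        (SemilinearAut.degZeroSMulHom g D)) := by
    rw [heckeOperatorBar_apply]
    show heckeOperatorAlong Qb N ℓ (Pic0.mk _) = _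
    rw [heckeOperatorAlong_eq hα hβ hFI hfin hN]
    rfl
  have hx : σ • σ • (Pic0.mk D : JZero N) - heckeOperatorBar N ⟨ℓ, hℓ⟩ (σ • Pic0.mk D) +
      ℓ • (Pic0.mk D : JZero N) =
      Pic0.mk (SemilinearAut.degZeroSMulHom g (SemilinearAut.degZeroSMulHom g D) -
        Pic0.degZeroCorrespondence (heckeBetaBar Qb N ℓ) (heckeAlphaBar Qb N ℓ) hβ hα hFI
          (SemilinearAut.degZeroSMulHom g D) + ℓ • D) := by
    rw [galois_smul_pic0_def, galois_smul_pic0_def, SemilinearAut.pic0_smul_mk,
      SemilinearAut.pic0_smul_mk, hT]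
    rfl
  rw [hx, reductionModL_mk h]
  have hzero : reductionDegZeroAlong r hr.1
      (SemilinearAut.degZeroSMulHom g (SemilinearAut.degZeroSMulHom g D) -
        Pic0.degZeroCorrespondence (heckeBetaBar Qb N ℓ) (heckeAlphaBar Qb N ℓ) hβ hα hFI
          (SemilinearAut.degZeroSMulHom g D) + ℓ • D) = 0 := by
    apply Subtype.ext
    rw [coe_reductionDegZeroAlong]
    have hgD : g • (D : Divisor Qb (modularFunctionFieldBar N)) ∈
        Divisor.degZero (K := Qb) (F := modularFunctionFieldBar N) :=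
      SemilinearAut.smul_mem_degZero g D.2
    have e1 := ghrm_red_frob (ℓ := ℓ) r hr hgen σ hσ (D : Divisor Qb (modularFunctionFieldBar N)) D.2
    have e2 := ghrm_red_frob (ℓ := ℓ) r hr hgen σ hσ _ hgD
    have e3 := ghrm_red_hecke (ℓ := ℓ) r hℓN hA hr hgen hα hβ _ hgD
    show Finsupp.mapDomain r (g • (g • (D : Divisor Qb (modularFunctionFieldBar N))) -
      heckeDivBar hα hβ (g • (D : Divisor Qb (modularFunctionFieldBar N))) +
        ℓ • (D : Divisor Qb (modularFunctionFieldBar N))) = 0
    rw [Finsupp.mapDomain_add, Finsupp.mapDomain_sub, e2, e3, e1, Finsupp.mapDomain_smul,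
      inv_smul_smul]
    abel
  rw [hzero]
  rfl

end Top

end Fermat.Agent.G
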